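import Fermat.Agent.S22.Period
import Fermat.Prelude.Sol.S_ModularForm_heckeT_slash_eq_self_of_mem_Gamma0

set_option autoImplicit false

noncomputable section

namespace Fermat.Agent.S22

open UpperHalfPlane Filter Topology Polynomial CongruenceSubgroup
open scoped MatrixGroups ModularForm Manifold

/-! ## [HECKE] -/

/-- Chain rule for a primitive composed with a self-map of `ℍ` which is affine in the
coordinate. -/
theorem hecke_isPrim_comp_affine {G F : ℍ → ℂ} (hG : IsPrim G F) (m : ℍ → ℍ) (r s : ℂ)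
    (hm : ∀ τ : ℍ, ((m τ : ℍ) : ℂ) = r * τ + s) :
    IsPrim (fun τ => G (m τ)) (fun τ => r * F (m τ)) := by
  intro τ
  have h1 : HasDerivAt (fun z : ℂ => r * z + s) r (τ : ℂ) := by
    simpa using ((hasDerivAt_id (τ : ℂ)).const_mul r).add_const s
  have h2 : HasDerivAt (G ∘ ofComplex) (F (m τ)) (r * (τ : ℂ) + s) := by
    rw [← hm τ]; exact hG (m τ)
  have h3 : HasDerivAt ((G ∘ ofComplex) ∘ fun z : ℂ => r * z + s) (F (m τ) * r) (τ : ℂ) :=
    HasDerivAt.comp (τ : ℂ) h2 h1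
  rw [mul_comm] at h3
  refine h3.congr_of_eventuallyEq ?_
  filter_upwards [isOpen_upperHalfPlaneSet.mem_nhds τ.im_pos] with z hz
  simp only [Function.comp_apply]
  rw [ofComplex_apply_of_im_pos hz, ← hm ⟨z, hz⟩, ofComplex_apply]

/-- Decay on vertical lines is preserved by real affine self-maps of `ℍ` with positive slope. -/
theorem hecke_decaysOnLines_comp_affine {G : ℍ → ℂ} (hG : DecaysOnLines G) (m : ℍ → ℍ)
    (r s : ℝ) (hr : 0 < r) (hm : ∀ τ : ℍ, ((m τ : ℍ) : ℂ) = (r : ℂ) * τ + (s : ℂ)) :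
    DecaysOnLines (fun τ => G (m τ)) := by
  intro x
  have h1 : Tendsto (fun y : ℝ => r * y) atTop atTop := tendsto_id.const_mul_atTop hr
  have h2 := (hG (r * x + s)).comp h1
  refine h2.congr' ?_
  filter_upwards [eventually_gt_atTop 0] with y hy
  simp only [Function.comp_apply]
  congr 1
  apply UpperHalfPlane.ext
  rw [hm, coe_vpt hy, coe_vpt (mul_pos hr hy)]
  push_cast
  ring


open ModularForm

/-- The integral adjugate of `heckeMatrix p j = !![1, j; 0, p]`. -/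
def heckeAdj (p j : ℕ) : Matrix (Fin 2) (Fin 2) ℤ := !![(p : ℤ), -(j : ℤ); 0, 1]

/-- The integral adjugate of `heckeDiagMatrix p = !![p, 0; 0, 1]`. -/
def heckeDiagAdj (p : ℕ) : Matrix (Fin 2) (Fin 2) ℤ := !![1, 0; 0, (p : ℤ)]

theorem hecke_eval_polyAct_heckeAdj {n : ℕ} {p : ℕ} (hp : p ≠ 0) (j : ℕ) {P : ℂ[X]}
    (hP : P.natDegree ≤ n) (τ : ℍ) :
    (polyAct n (heckeAdj p j) P).eval ((heckeMatrix p j • τ : ℍ) : ℂ) = P.eval (τ : ℂ) := by
  have hp' : (p : ℂ) ≠ 0 := by exact_mod_cast hp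
  rw [eval_polyAct (heckeAdj p j) hP _ (by simp [heckeAdj]), coe_heckeMatrix_smul hp]
  simp only [heckeAdj, Matrix.of_apply, Matrix.cons_val', Matrix.cons_val_zero,
    Matrix.cons_val_one, Matrix.cons_val_fin_one]
  push_cast
  have e : ((p : ℂ) * (((τ : ℂ) + (j : ℂ)) / (p : ℂ)) + -(j : ℂ)) /
      ((0 : ℂ) * (((τ : ℂ) + (j : ℂ)) / (p : ℂ)) + 1) = (τ : ℂ) := by
    rw [zero_mul, zero_add, div_one, mul_div_cancel₀ _ hp']
    ring
  rw [e]
  simp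

theorem hecke_eval_polyAct_heckeDiagAdj {n : ℕ} {p : ℕ} (hp : p ≠ 0) {P : ℂ[X]}
    (hP : P.natDegree ≤ n) (τ : ℍ) :
    (polyAct n (heckeDiagAdj p) P).eval ((heckeDiagMatrix p • τ : ℍ) : ℂ) =
      (p : ℂ) ^ n * P.eval (τ : ℂ) := by
  have hp' : (p : ℂ) ≠ 0 := by exact_mod_cast hp
  rw [eval_polyAct (heckeDiagAdj p) hP _ (by simp [heckeDiagAdj, hp]), coe_heckeDiagMatrix_smul hp]
  simp only [heckeDiagAdj, Matrix.of_apply, Matrix.cons_val', Matrix.cons_val_zero,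
    Matrix.cons_val_one, Matrix.cons_val_fin_one]
  push_cast
  have e : ((1 : ℂ) * ((p : ℂ) * (τ : ℂ)) + 0) / ((0 : ℂ) * ((p : ℂ) * (τ : ℂ)) + (p : ℂ)) =
      (τ : ℂ) := by
    rw [zero_mul, zero_add, one_mul, add_zero, mul_div_cancel_left₀ _ hp']
  rw [e]
  simp


theorem hecke_isPrim_heckeMatrix {h : ℝ} {f : ℍ → ℂ} (hf : IsCuspidal h f) {n : ℕ} {p : ℕ}
    (hp : p ≠ 0) (j : ℕ) {P : ℂ[X]} (hP : P.natDegree ≤ n) :
    IsPrim (fun τ => Psi n f (polyAct n (heckeAdj p j) P) (heckeMatrix p j • τ))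
      ((f ∣[(n : ℤ) + 2] heckeMatrix p j) * polyFun P) := by
  have hp' : (p : ℂ) ≠ 0 := by exact_mod_cast hp
  have hG := isPrim_Psi hf (natDegree_polyAct_le n (heckeAdj p j) P)
  have h1 := hecke_isPrim_comp_affine hG (fun τ => heckeMatrix p j • τ) (p : ℂ)⁻¹
    ((j : ℂ) / (p : ℂ)) (fun τ => by
      rw [coe_heckeMatrix_smul hp]
      field_simp)
  refine h1.congr_right ?_
  funext τ
  simp only [Pi.mul_apply, polyFun, slash_heckeMatrix_apply _ hp,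
    hecke_eval_polyAct_heckeAdj hp j hP]
  ring

theorem hecke_isPrim_heckeDiagMatrix {h : ℝ} {f : ℍ → ℂ} (hf : IsCuspidal h f) {n : ℕ} {p : ℕ}
    (hp : p ≠ 0) {P : ℂ[X]} (hP : P.natDegree ≤ n) :
    IsPrim (fun τ => Psi n f (polyAct n (heckeDiagAdj p) P) (heckeDiagMatrix p • τ))
      ((f ∣[(n : ℤ) + 2] heckeDiagMatrix p) * polyFun P) := by
  have hp' : (p : ℂ) ≠ 0 := by exact_mod_cast hp
  have hG := isPrim_Psi hf (natDegree_polyAct_le n (heckeDiagAdj p) P)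
  have h1 := hecke_isPrim_comp_affine hG (fun τ => heckeDiagMatrix p • τ) (p : ℂ) 0
    (fun τ => by
      rw [coe_heckeDiagMatrix_smul hp, add_zero])
  refine h1.congr_right ?_
  funext τ
  simp only [Pi.mul_apply, polyFun, slash_heckeDiagMatrix_apply _ hp,
    hecke_eval_polyAct_heckeDiagAdj hp hP]
  have e : (p : ℂ) ^ ((n : ℤ) + 2 - 1) = (p : ℂ) ^ (n + 1) := by
    rw [show (n : ℤ) + 2 - 1 = ((n + 1 : ℕ) : ℤ) by push_cast; ring, zpow_natCast]
  rw [e]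
  ring

theorem hecke_decays_heckeMatrix {h : ℝ} {f : ℍ → ℂ} (hf : IsCuspidal h f) (n : ℕ) {p : ℕ}
    (hp : p ≠ 0) (j : ℕ) (Q : ℂ[X]) :
    DecaysOnLines (fun τ => Psi n f Q (heckeMatrix p j • τ)) := by
  have hp' : (p : ℂ) ≠ 0 := by exact_mod_cast hp
  have hp0 : (0 : ℝ) < p := by exact_mod_cast Nat.pos_of_ne_zero hp
  refine hecke_decaysOnLines_comp_affine (decaysOnLines_Psi hf n Q) (fun τ => heckeMatrix p j • τ)
    ((p : ℝ)⁻¹) ((j : ℝ) / (p : ℝ)) (inv_pos.mpr hp0) (fun τ => ?_)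
  rw [coe_heckeMatrix_smul hp]
  push_cast
  field_simp

theorem hecke_decays_heckeDiagMatrix {h : ℝ} {f : ℍ → ℂ} (hf : IsCuspidal h f) (n : ℕ) {p : ℕ}
    (hp : p ≠ 0) (Q : ℂ[X]) :
    DecaysOnLines (fun τ => Psi n f Q (heckeDiagMatrix p • τ)) := by
  have hp0 : (0 : ℝ) < p := by exact_mod_cast Nat.pos_of_ne_zero hp
  refine hecke_decaysOnLines_comp_affine (decaysOnLines_Psi hf n Q)
    (fun τ => heckeDiagMatrix p • τ) (p : ℝ) 0 hp0 (fun τ => ?_)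
  rw [coe_heckeDiagMatrix_smul hp]
  push_cast
  ring


/-! ### Abstract Hecke step -/

/-- The data attached to one coset representative `α` with integral "adjugate" `A`. -/
structure HeckeDatum (n : ℕ) (f : ℍ → ℂ) (α : GL (Fin 2) ℝ) (A : Matrix (Fin 2) (Fin 2) ℤ)
    (c : ℝ) : Prop where
  prim : ∀ P : ℂ[X], P.natDegree ≤ n →
    IsPrim (fun τ => Psi n f (polyAct n A P) (α • τ)) ((f ∣[(n : ℤ) + 2] α) * polyFun P)
  decay : ∀ Q : ℂ[X], DecaysOnLines (fun τ => Psi n f Q (α • τ))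
  det_pos : 0 < A.det
  adj_left : A.map (Int.cast : ℤ → ℝ) * (α : Matrix (Fin 2) (Fin 2) ℝ) = c • 1
  adj_right : (α : Matrix (Fin 2) (Fin 2) ℝ) * A.map (Int.cast : ℤ → ℝ) = c • 1

theorem heckeDatum_heckeMatrix {h : ℝ} {f : ℍ → ℂ} (hf : IsCuspidal h f) (n : ℕ) {p : ℕ}
    (hp : p ≠ 0) (j : ℕ) : HeckeDatum n f (heckeMatrix p j) (heckeAdj p j) p where
  prim P hP := hecke_isPrim_heckeMatrix hf hp j hP
  decay Q := hecke_decays_heckeMatrix hf n hp j Q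
  det_pos := by
    simp only [heckeAdj, Matrix.det_fin_two_of]
    have : (0 : ℤ) < p := by exact_mod_cast Nat.pos_of_ne_zero hp
    linarith
  adj_left := by
    rw [val_heckeMatrix hp]
    ext a b
    fin_cases a <;> fin_cases b <;>
      simp [heckeAdj, Matrix.mul_apply, Fin.sum_univ_two]
    ring
  adj_right := by
    rw [val_heckeMatrix hp]
    ext a b
    fin_cases a <;> fin_cases b <;>
      simp [heckeAdj, Matrix.mul_apply, Fin.sum_univ_two]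

theorem heckeDatum_heckeDiagMatrix {h : ℝ} {f : ℍ → ℂ} (hf : IsCuspidal h f) (n : ℕ) {p : ℕ}
    (hp : p ≠ 0) : HeckeDatum n f (heckeDiagMatrix p) (heckeDiagAdj p) p where
  prim P hP := hecke_isPrim_heckeDiagMatrix hf hp hP
  decay Q := hecke_decays_heckeDiagMatrix hf n hp Q
  det_pos := by
    simp only [heckeDiagAdj, Matrix.det_fin_two_of]
    have : (0 : ℤ) < p := by exact_mod_cast Nat.pos_of_ne_zero hp
    linarith
  adj_left := by
    rw [val_heckeDiagMatrix hp]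
    ext a b
    fin_cases a <;> fin_cases b <;>
      simp [heckeDiagAdj, Matrix.mul_apply, Fin.sum_univ_two]
  adj_right := by
    rw [val_heckeDiagMatrix hp]
    ext a b
    fin_cases a <;> fin_cases b <;>
      simp [heckeDiagAdj, Matrix.mul_apply, Fin.sum_univ_two]


theorem hecke_isPrim_zero : IsPrim (0 : ℍ → ℂ) (0 : ℍ → ℂ) := by
  intro τ
  have : ((0 : ℍ → ℂ) ∘ ofComplex) = fun _ : ℂ => (0 : ℂ) := by
    funext z; rfl
  rw [this]
  exact hasDerivAt_const _ _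

theorem hecke_isPrim_sum {ι : Type*} (s : Finset ι) (G F : ι → ℍ → ℂ)
    (h : ∀ x ∈ s, IsPrim (G x) (F x)) : IsPrim (∑ x ∈ s, G x) (∑ x ∈ s, F x) := by
  classical
  induction s using Finset.induction_on with
  | empty => simpa using hecke_isPrim_zero
  | insert a s ha ih =>
    rw [Finset.sum_insert ha, Finset.sum_insert ha]
    exact (h a (Finset.mem_insert_self a s)).add
      (ih fun x hx => h x (Finset.mem_insert_of_mem hx))

theorem hecke_decaysOnLines_sum {ι : Type*} (s : Finset ι) (G : ι → ℍ → ℂ)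
    (h : ∀ x ∈ s, DecaysOnLines (G x)) : DecaysOnLines (∑ x ∈ s, G x) := by
  intro x
  have := tendsto_finsetSum s (fun i hi => h i hi x)
  simpa [Finset.sum_apply] using this

/-- The primitive `Ψ` of a finite sum of slashes, in terms of the primitives of `f`. -/
theorem hecke_Psi_sum {ι : Type*} [Fintype ι] {h' : ℝ} {f F : ℍ → ℂ}
    (hF : IsCuspidal h' F) {n : ℕ} (α : ι → GL (Fin 2) ℝ) (A : ι → Matrix (Fin 2) (Fin 2) ℤ)
    (c : ℝ) (hD : ∀ x, HeckeDatum n f (α x) (A x) c)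
    (hsum : F = ∑ x, f ∣[(n : ℤ) + 2] α x) {P : ℂ[X]} (hP : P.natDegree ≤ n) :
    Psi n F P = ∑ x, fun τ => Psi n f (polyAct n (A x) P) (α x • τ) := by
  symm
  apply Psi_unique hF hP
  · have := hecke_isPrim_sum Finset.univ
      (fun x τ => Psi n f (polyAct n (A x) P) (α x • τ))
      (fun x => (f ∣[(n : ℤ) + 2] α x) * polyFun P) (fun x _ => (hD x).prim P hP)
    refine this.congr_right ?_
    rw [hsum, Finset.sum_mul]
  · exact hecke_decaysOnLines_sum _ _ fun x _ => (hD x).decay _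

/-- The commutation relation for the integral adjugates. -/
theorem hecke_adj_comm {α α' : GL (Fin 2) ℝ} {A A' : Matrix (Fin 2) (Fin 2) ℤ} {c : ℝ}
    (hc : c ≠ 0)
    (hl : A.map (Int.cast : ℤ → ℝ) * (α : Matrix (Fin 2) (Fin 2) ℝ) = c • 1)
    (hr : (α' : Matrix (Fin 2) (Fin 2) ℝ) * A'.map (Int.cast : ℤ → ℝ) = c • 1)
    (γ γ' : SL(2, ℤ))
    (hcomm : α * Matrix.SpecialLinearGroup.mapGL ℝ γ =
      Matrix.SpecialLinearGroup.mapGL ℝ γ' * α') :
    A * (γ' : Matrix (Fin 2) (Fin 2) ℤ) = (γ : Matrix (Fin 2) (Fin 2) ℤ) * A' := by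
  have hg : ∀ g : SL(2, ℤ), ((Matrix.SpecialLinearGroup.mapGL ℝ g : GL (Fin 2) ℝ) :
      Matrix (Fin 2) (Fin 2) ℝ) = (g : Matrix (Fin 2) (Fin 2) ℤ).map (Int.cast : ℤ → ℝ) := by
    intro g
    ext i j
    simp
  have hval : (α : Matrix (Fin 2) (Fin 2) ℝ) *
      (γ : Matrix (Fin 2) (Fin 2) ℤ).map (Int.cast : ℤ → ℝ) =
      (γ' : Matrix (Fin 2) (Fin 2) ℤ).map (Int.cast : ℤ → ℝ) * (α' : Matrix (Fin 2) (Fin 2) ℝ) := by
    have := congrArg (fun g : GL (Fin 2) ℝ => (g : Matrix (Fin 2) (Fin 2) ℝ)) hcomm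
    simpa only [Units.val_mul, hg] using this
  have key : c • (A.map (Int.cast : ℤ → ℝ) *
      (γ' : Matrix (Fin 2) (Fin 2) ℤ).map (Int.cast : ℤ → ℝ)) =
      c • ((γ : Matrix (Fin 2) (Fin 2) ℤ).map (Int.cast : ℤ → ℝ) *
        A'.map (Int.cast : ℤ → ℝ)) := by
    calc c • (A.map (Int.cast : ℤ → ℝ) * (γ' : Matrix (Fin 2) (Fin 2) ℤ).map (Int.cast : ℤ → ℝ))
        = A.map (Int.cast : ℤ → ℝ) * (γ' : Matrix (Fin 2) (Fin 2) ℤ).map (Int.cast : ℤ → ℝ) *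
            (c • 1) := by rw [Matrix.mul_smul, Matrix.mul_one]
      _ = A.map (Int.cast : ℤ → ℝ) * ((γ' : Matrix (Fin 2) (Fin 2) ℤ).map (Int.cast : ℤ → ℝ) *
            (α' : Matrix (Fin 2) (Fin 2) ℝ)) * A'.map (Int.cast : ℤ → ℝ) := by
          rw [← hr]; simp only [Matrix.mul_assoc]
      _ = (A.map (Int.cast : ℤ → ℝ) * (α : Matrix (Fin 2) (Fin 2) ℝ)) *
            (γ : Matrix (Fin 2) (Fin 2) ℤ).map (Int.cast : ℤ → ℝ) * A'.map (Int.cast : ℤ → ℝ) := by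
          rw [← hval]; simp only [Matrix.mul_assoc]
      _ = c • ((γ : Matrix (Fin 2) (Fin 2) ℤ).map (Int.cast : ℤ → ℝ) *
            A'.map (Int.cast : ℤ → ℝ)) := by
          rw [hl, Matrix.smul_mul, Matrix.one_mul, Matrix.smul_mul]
  have key2 := smul_right_injective (Matrix (Fin 2) (Fin 2) ℝ) hc key
  have hinj : Function.Injective (fun M : Matrix (Fin 2) (Fin 2) ℤ =>
      M.map (Int.cast : ℤ → ℝ)) := Matrix.map_injective Int.cast_injective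
  apply hinj
  simp only
  rw [Matrix.map_mul_intCast, Matrix.map_mul_intCast]
  exact key2


theorem hecke_smul_comm {α α' : GL (Fin 2) ℝ} (γ γ' : SL(2, ℤ))
    (hcomm : α * Matrix.SpecialLinearGroup.mapGL ℝ γ =
      Matrix.SpecialLinearGroup.mapGL ℝ γ' * α') (τ : ℍ) :
    α • (γ • τ) = γ' • (α' • τ) := by
  have h1 : γ • τ = Matrix.SpecialLinearGroup.mapGL ℝ γ • τ := rfl
  have h2 : γ' • (α' • τ) = Matrix.SpecialLinearGroup.mapGL ℝ γ' • (α' • τ) := rfl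
  rw [h1, h2, ← mul_smul, ← mul_smul, hcomm]

/-- The abstract Hecke step: the period of `T f` is an integral combination of periods
of `f`. -/
theorem hecke_period_sum (N : ℕ) [NeZero N] (n : ℕ) {ι : Type*} [Fintype ι]
    (α : ι → GL (Fin 2) ℝ) (A : ι → Matrix (Fin 2) (Fin 2) ℤ) (c : ℝ) (hc : c ≠ 0)
    (f Tf : CuspForm (Gamma0 N) ((n : ℤ) + 2))
    (hT : ⇑Tf = ∑ x, ⇑f ∣[(n : ℤ) + 2] α x)
    (hD : ∀ x, HeckeDatum n ⇑f (α x) (A x) c)
    {γ : SL(2, ℤ)} (hγ : γ ∈ Gamma0 N) (σ : Equiv.Perm ι) (γ' : ι → SL(2, ℤ))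
    (hγ' : ∀ x, γ' x ∈ Gamma0 N)
    (hcomm : ∀ x, α x * Matrix.SpecialLinearGroup.mapGL ℝ γ =
      Matrix.SpecialLinearGroup.mapGL ℝ (γ' x) * α (σ x))
    {P : ℂ[X]} (hP : P.natDegree ≤ n) :
    period N n γ P Tf = ∑ x, period N n (γ' x) (polyAct n (A x) P) f := by
  have hTf := isCuspidal_cuspForm N _ Tf
  have e1 := hecke_Psi_sum hTf α A c hD hT hP
  have e2 := hecke_Psi_sum hTf α A c hD hT
    (natDegree_polyAct_le n (γ : Matrix (Fin 2) (Fin 2) ℤ) P)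
  have hpoly : ∀ x, polyAct n (γ' x : Matrix (Fin 2) (Fin 2) ℤ) (polyAct n (A x) P) =
      polyAct n (A (σ x)) (polyAct n (γ : Matrix (Fin 2) (Fin 2) ℤ) P) := by
    intro x
    have hdet : ∀ g : SL(2, ℤ), 0 < (g : Matrix (Fin 2) (Fin 2) ℤ).det := fun g => by
      rw [g.det_coe]; exact one_pos
    rw [← polyAct_mul (A x) (γ' x : Matrix (Fin 2) (Fin 2) ℤ) (hD x).det_pos (hdet _) hP,
      ← polyAct_mul (γ : Matrix (Fin 2) (Fin 2) ℤ) (A (σ x)) (hdet _) (hD (σ x)).det_pos hP,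
      hecke_adj_comm hc (hD x).adj_left (hD (σ x)).adj_right γ (γ' x) (hcomm x)]
  have hx : ∀ x, period N n (γ' x) (polyAct n (A x) P) f =
      Psi n (⇑f) (polyAct n (A x) P) (α x • (γ • I)) -
        Psi n (⇑f) (polyAct n (A (σ x)) (polyAct n (γ : Matrix (Fin 2) (Fin 2) ℤ) P))
          (α (σ x) • I) := by
    intro x
    rw [period_eq N n (hγ' x) (natDegree_polyAct_le n (A x) P) f (α (σ x) • I), hpoly x,
      hecke_smul_comm γ (γ' x) (hcomm x) I]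
  have hperm : ∑ x, Psi n (⇑f) (polyAct n (A (σ x))
      (polyAct n (γ : Matrix (Fin 2) (Fin 2) ℤ) P)) (α (σ x) • I) =
      ∑ y, Psi n (⇑f) (polyAct n (A y) (polyAct n (γ : Matrix (Fin 2) (Fin 2) ℤ) P))
        (α y • I) :=
    Equiv.sum_comp σ (fun y => Psi n (⇑f)
      (polyAct n (A y) (polyAct n (γ : Matrix (Fin 2) (Fin 2) ℤ) P)) (α y • I))
  have hL1 : Psi n (⇑Tf) P (γ • I) = ∑ x, Psi n (⇑f) (polyAct n (A x) P) (α x • (γ • I)) := by
    rw [e1, Finset.sum_apply]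
  have hL2 : Psi n (⇑Tf) (polyAct n (γ : Matrix (Fin 2) (Fin 2) ℤ) P) I =
      ∑ y, Psi n (⇑f) (polyAct n (A y) (polyAct n (γ : Matrix (Fin 2) (Fin 2) ℤ) P))
        (α y • I) := by
    rw [e2, Finset.sum_apply]
  rw [period_eq N n hγ hP Tf I, hL1, hL2, Finset.sum_congr rfl (fun x _ => hx x),
    Finset.sum_sub_distrib, hperm]


open P2MW.S_ModularForm_heckeT_slash_eq_self_of_mem_Gamma0.ModularForm.HeckeSlashInvariance in
theorem hecke_period_comp_heckeT (N : ℕ) [NeZero N] (n : ℕ) {ℓ : ℕ} (hℓ : ℓ.Prime)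
    (hℓN : ¬ ℓ ∣ N) {γ : SL(2, ℤ)} (hγ : γ ∈ Gamma0 N) {P : ℂ[X]} (hP : P ∈ intPoly n) :
    period N n γ P ∘ₗ CuspForm.heckeTLin ((n : ℤ) + 2) hℓ hℓN ∈ lattice N n := by
  have : Fact ℓ.Prime := ⟨hℓ⟩
  have : NeZero ℓ := ⟨hℓ.ne_zero⟩
  have hcN : (N : ℤ) ∣ γ 1 0 :=
    (ZMod.intCast_zmod_eq_zero_iff_dvd _ _).mp (Gamma0_mem.mp hγ)
  choose γ' hγ'N hγ'comm using fun x => heckeRep_mul hℓN γ hcN x
  have hγ' : ∀ x, γ' x ∈ Gamma0 N := fun x =>
    Gamma0_mem.mpr ((ZMod.intCast_zmod_eq_zero_iff_dvd _ _).mpr (hγ'N x))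
  let A : OnePoint (ZMod ℓ) → Matrix (Fin 2) (Fin 2) ℤ := fun x =>
    x.elim (heckeDiagAdj ℓ) (fun j => heckeAdj ℓ j.val)
  have hℓ0 : (ℓ : ℝ) ≠ 0 := by exact_mod_cast hℓ.ne_zero
  have key : period N n γ P ∘ₗ CuspForm.heckeTLin ((n : ℤ) + 2) hℓ hℓN =
      ∑ x, period N n (γ' x) (polyAct n (A x) P) := by
    apply LinearMap.ext
    intro f
    rw [LinearMap.comp_apply, LinearMap.sum_apply]
    refine hecke_period_sum N n (heckeRep ℓ) A ℓ hℓ0 f _ ?_ ?_ hγ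
      (MulAction.toPerm (redMatrix ℓ γ)) γ' hγ' hγ'comm hP.1
    · rw [CuspForm.coe_heckeTLin_apply, heckeT_eq_sum_onePoint]
    · intro x
      induction x using OnePoint.rec with
      | infty => exact heckeDatum_heckeDiagMatrix (isCuspidal_cuspForm N _ f) n hℓ.ne_zero
      | coe j => exact heckeDatum_heckeMatrix (isCuspidal_cuspForm N _ f) n hℓ.ne_zero j.val
  rw [key]
  exact Submodule.sum_mem _ fun x _ => period_mem_lattice N n (hγ' x) (polyAct_mem_intPoly _ hP)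

open P2MW.S_ModularForm_heckeT_slash_eq_self_of_mem_Gamma0.ModularForm.HeckeSlashInvariance in
theorem hecke_period_comp_heckeU (N : ℕ) [NeZero N] (n : ℕ) {q : ℕ} (hq : q.Prime)
    (hqN : q ∣ N) {γ : SL(2, ℤ)} (hγ : γ ∈ Gamma0 N) {P : ℂ[X]} (hP : P ∈ intPoly n) :
    period N n γ P ∘ₗ CuspForm.heckeULin ((n : ℤ) + 2) hqN ∈ lattice N n := by
  have : NeZero q := ⟨hq.ne_zero⟩
  have hcN : (N : ℤ) ∣ γ 1 0 :=
    (ZMod.intCast_zmod_eq_zero_iff_dvd _ _).mp (Gamma0_mem.mp hγ)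
  have hc : (q : ℤ) ∣ γ 1 0 := (Int.natCast_dvd_natCast.mpr hqN).trans hcN
  choose γ' hγ'10 hγ'comm using fun x => heckeMatrix_mul_of_dvd γ hc x
  have hγ' : ∀ x, γ' x ∈ Gamma0 N := fun x => by
    rw [Gamma0_mem, hγ'10 x]
    push_cast
    rw [Gamma0_mem.mp hγ, mul_zero]
  have hq0 : (q : ℝ) ≠ 0 := by exact_mod_cast hq.ne_zero
  have key : period N n γ P ∘ₗ CuspForm.heckeULin ((n : ℤ) + 2) hqN =
      ∑ x : ZMod q, period N n (γ' x) (polyAct n (heckeAdj q x.val) P) := by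
    apply LinearMap.ext
    intro f
    rw [LinearMap.comp_apply, LinearMap.sum_apply]
    refine hecke_period_sum N n (fun x : ZMod q => heckeMatrix q x.val)
      (fun x => heckeAdj q x.val) q hq0 f _ ?_ ?_ hγ
      (affinePerm γ ((ZMod.intCast_zmod_eq_zero_iff_dvd _ _).mpr hc)) γ' hγ' hγ'comm hP.1
    · rw [CuspForm.coe_heckeULin_apply, heckeU_eq_sum_zmod]
    · intro x
      exact heckeDatum_heckeMatrix (isCuspidal_cuspForm N _ f) n hq.ne_zero x.val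
  rw [key]
  exact Submodule.sum_mem _ fun x _ => period_mem_lattice N n (hγ' x) (polyAct_mem_intPoly _ hP)

theorem hecke_lattice_comp_stable (N : ℕ) [NeZero N] (n : ℕ)
    (T : CuspForm (Gamma0 N) ((n : ℤ) + 2) →ₗ[ℂ] CuspForm (Gamma0 N) ((n : ℤ) + 2))
    (hT : ∀ γ ∈ Gamma0 N, ∀ P ∈ intPoly n, period N n γ P ∘ₗ T ∈ lattice N n)
    {ξ : Module.Dual ℂ (CuspForm (Gamma0 N) ((n : ℤ) + 2))} (hξ : ξ ∈ lattice N n) :
    ξ ∘ₗ T ∈ lattice N n := by
  unfold lattice at hξ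
  induction hξ using Submodule.span_induction with
  | mem ξ hξ =>
    obtain ⟨γ, hγ, P, hP, rfl⟩ := hξ
    exact hT γ hγ P hP
  | zero =>
    rw [LinearMap.zero_comp]
    exact Submodule.zero_mem _
  | add x y _ _ hx hy =>
    rw [LinearMap.add_comp]
    exact Submodule.add_mem _ hx hy
  | smul m x _ hx =>
    have e : (m • x) ∘ₗ T = m • (x ∘ₗ T) := by
      ext f
      simp
    rw [e]
    exact Submodule.smul_mem _ m hx

theorem lattice_heckeT_stable (N : ℕ) [NeZero N] (n : ℕ) {ℓ : ℕ} (hℓ : ℓ.Prime) (hℓN : ¬ ℓ ∣ N)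
    {ξ : Module.Dual ℂ (CuspForm (Gamma0 N) ((n : ℤ) + 2))} (hξ : ξ ∈ lattice N n) :
    ξ ∘ₗ CuspForm.heckeTLin ((n : ℤ) + 2) hℓ hℓN ∈ lattice N n :=
  hecke_lattice_comp_stable N n _
    (fun _ hγ _ hP => hecke_period_comp_heckeT N n hℓ hℓN hγ hP) hξ

theorem lattice_heckeU_stable (N : ℕ) [NeZero N] (n : ℕ) {q : ℕ} (hq : q.Prime) (hqN : q ∣ N)
    {ξ : Module.Dual ℂ (CuspForm (Gamma0 N) ((n : ℤ) + 2))} (hξ : ξ ∈ lattice N n) :
    ξ ∘ₗ CuspForm.heckeULin ((n : ℤ) + 2) hqN ∈ lattice N n :=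
  hecke_lattice_comp_stable N n _
    (fun _ hγ _ hP => hecke_period_comp_heckeU N n hq hqN hγ hP) hξ

end Fermat.Agent.S22

end
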