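import Fermat.Agent.S22.Period

/-!
# S22 [INJ]: the period lattice separates cusp forms

If all periods of `f ∈ S_{n+2}(Γ₀(N))` along `Γ₀(N)` vanish, then the `(n+1)`-fold cuspidal
primitive `E` of `f` is a modular form of weight `-n`, hence zero, hence `f = 0`.
-/

set_option autoImplicit false

noncomputable section

namespace Fermat.Agent.S22

open UpperHalfPlane Filter Topology Polynomial CongruenceSubgroup
open scoped MatrixGroups ModularForm Manifold Pointwise

/-- the period is linear in the polynomial: bundled version -/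
def inj_periodLin (N : ℕ) [NeZero N] (n : ℕ) (g : SL(2, ℤ))
    (f : CuspForm (Gamma0 N) ((n : ℤ) + 2)) : ℂ[X] →ₗ[ℂ] ℂ where
  toFun P := period N n g P f
  map_add' P Q := by rw [period_add]; rfl
  map_smul' c P := by rw [period_smul]; rfl

theorem inj_periodLin_apply (N : ℕ) [NeZero N] (n : ℕ) (g : SL(2, ℤ))
    (f : CuspForm (Gamma0 N) ((n : ℤ) + 2)) (P : ℂ[X]) :
    inj_periodLin N n g f P = period N n g P f := rfl

/-- vanishing of the periods on integral polynomials implies vanishing on all polynomials of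
degree `≤ n` -/
theorem inj_period_eq_zero (N : ℕ) [NeZero N] (n : ℕ)
    (f : CuspForm (Gamma0 N) ((n : ℤ) + 2))
    (h : ∀ γ ∈ Gamma0 N, ∀ P ∈ intPoly n, period N n γ P f = 0)
    {γ : SL(2, ℤ)} (hγ : γ ∈ Gamma0 N) {P : ℂ[X]} (hP : P.natDegree ≤ n) :
    period N n γ P f = 0 := by
  have hspan := span_intPoly n hP
  rw [← inj_periodLin_apply]
  clear hP
  induction hspan using Submodule.span_induction with
  | mem Q hQ => exact h γ hγ Q hQ
  | zero => exact map_zero _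
  | add Q₁ Q₂ _ _ h₁ h₂ => rw [map_add, h₁, h₂, add_zero]
  | smul c Q _ hQ => rw [map_smul, hQ, smul_zero]

/-- slash invariance of a cusp form, for elements of `SL(2, ℤ)` -/
theorem inj_slash_eq (N : ℕ) [NeZero N] (k : ℤ) (f : CuspForm (Gamma0 N) k)
    {γ : SL(2, ℤ)} (hγ : γ ∈ Gamma0 N) : (⇑f) ∣[k] γ = ⇑f := by
  rw [ModularForm.SL_slash]
  exact SlashInvariantFormClass.slash_action_eq f _ ⟨γ, hγ, rfl⟩

theorem inj_coe_smul (g : SL(2, ℤ)) (τ : ℍ) :
    ((g • τ : ℍ) : ℂ) = num g τ / denom g τ := by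
  rw [ModularGroup.sl_moeb]
  exact UpperHalfPlane.coe_smul_of_det_pos (by simp) τ

theorem inj_pow_eq (g : SL(2, ℤ)) (τ : ℍ) (n : ℕ) :
    (C (denom g τ) * X - C (num g τ)) ^ n =
      (denom g τ ^ n) • (X - C ((g • τ : ℍ) : ℂ)) ^ n := by
  have hd : denom g τ ≠ 0 := denom_ne_zero g τ
  rw [inj_coe_smul, smul_eq_C_mul, C_pow, ← mul_pow]
  congr 1
  rw [mul_sub, ← C_mul, mul_div_cancel₀ _ hd]

/-- The key identity relating `E ∣[-n] g`, `E_g` and the periods. -/
theorem inj_key (N : ℕ) [NeZero N] (n : ℕ) (f : CuspForm (Gamma0 N) ((n : ℤ) + 2))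
    (g : SL(2, ℤ)) (τ : ℍ) :
    period N n g ((C (denom g τ) * X - C (num g τ)) ^ n) f =
      ((-1 : ℂ) ^ n * (n.factorial : ℂ)) * (denom g τ ^ n * (cuspPrim^[n + 1] ⇑f) (g • τ))
      - ((-1 : ℂ) ^ n * (n.factorial : ℂ)) * (cuspPrim^[n + 1] (⇑f ∣[(n : ℤ) + 2] g)) τ := by
  obtain ⟨h, hh⟩ := exists_isCuspidal_slash N ((n : ℤ) + 2)
  have hF : IsCuspidal 1 ⇑f := isCuspidal_cuspForm N _ f
  have hFg : IsCuspidal h (⇑f ∣[(n : ℤ) + 2] g) := hh f g
  have hd : denom g τ ≠ 0 := denom_ne_zero g τ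
  set P₀ : ℂ[X] := (X - C ((g • τ : ℍ) : ℂ)) ^ n with hP₀
  have hP₀deg : P₀.natDegree ≤ n := by
    rw [hP₀]
    exact (natDegree_pow_le).trans (by rw [natDegree_X_sub_C, mul_one])
  have h1 : period N n g P₀ f = periodAt n g P₀ (⇑f) τ := by
    rw [period_apply]
    exact periodAt_const hF hFg hP₀deg I τ
  have h2 : periodAt n g P₀ (⇑f) τ =
      ((-1 : ℂ) ^ n * (n.factorial : ℂ)) * (cuspPrim^[n + 1] ⇑f) (g • τ)
      - (denom g τ ^ n)⁻¹ *
        (((-1 : ℂ) ^ n * (n.factorial : ℂ)) * (cuspPrim^[n + 1] (⇑f ∣[(n : ℤ) + 2] g)) τ) := by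
    rw [periodAt, hP₀, Psi_X_sub_C_pow, polyAct_X_sub_C_pow, ← smul_eq_C_mul, Psi_smul_right,
      Pi.smul_apply, Psi_X_sub_C_pow, smul_eq_mul]
  rw [inj_pow_eq, period_smul, LinearMap.smul_apply, h1, h2, smul_eq_mul]
  field_simp

/-- the value of a linear functional on `(C d * X - C u)^n` is a polynomial in `(d, u)` -/
theorem inj_lin_pow (Λ : ℂ[X] →ₗ[ℂ] ℂ) (n : ℕ) (d u : ℂ) :
    Λ ((C d * X - C u) ^ n) =
      ∑ m ∈ Finset.range (n + 1), d ^ m * (-u) ^ (n - m) * (n.choose m : ℂ) * Λ (X ^ m) := by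
  have h : (C d * X - C u) ^ n =
      ∑ m ∈ Finset.range (n + 1), (d ^ m * (-u) ^ (n - m) * (n.choose m : ℂ)) • (X ^ m : ℂ[X]) := by
    rw [sub_eq_add_neg, add_pow]
    refine Finset.sum_congr rfl fun m _ => ?_
    rw [smul_eq_C_mul, mul_pow, ← C_pow, ← C_neg, ← C_pow]
    simp only [C_mul, map_natCast]
    ring
  rw [h, map_sum]
  refine Finset.sum_congr rfl fun m _ => ?_
  rw [map_smul, smul_eq_mul]

theorem inj_exists_poly (N : ℕ) [NeZero N] (n : ℕ) (f : CuspForm (Gamma0 N) ((n : ℤ) + 2))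
    (g : SL(2, ℤ)) :
    ∃ R : ℂ[X], ∀ τ : ℍ,
      period N n g ((C (denom g τ) * X - C (num g τ)) ^ n) f = R.eval (τ : ℂ) := by
  set Λ := inj_periodLin N n g f with hΛ
  set a : ℂ := (((g : GL (Fin 2) ℝ) 0 0 : ℝ) : ℂ) with ha
  set b : ℂ := (((g : GL (Fin 2) ℝ) 0 1 : ℝ) : ℂ) with hb
  set c : ℂ := (((g : GL (Fin 2) ℝ) 1 0 : ℝ) : ℂ) with hc
  set d : ℂ := (((g : GL (Fin 2) ℝ) 1 1 : ℝ) : ℂ) with hd
  refine ⟨∑ m ∈ Finset.range (n + 1), (C c * X + C d) ^ m * (-(C a * X + C b)) ^ (n - m) *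
      C ((n.choose m : ℂ) * Λ (X ^ m)), fun τ => ?_⟩
  rw [← inj_periodLin_apply, inj_lin_pow, eval_finsetSum]
  refine Finset.sum_congr rfl fun m _ => ?_
  have h1 : denom g τ = c * τ + d := rfl
  have h2 : num g τ = a * τ + b := rfl
  simp only [eval_mul, eval_pow, eval_add, eval_neg, eval_C, eval_X, h1, h2]
  ring

/-- A polynomial that tends to `0` along the imaginary axis is zero. -/
theorem inj_poly_eq_zero_of_tendsto (R : ℂ[X])
    (h : Tendsto (fun y : ℝ => R.eval ((y : ℂ) * Complex.I)) atTop (𝓝 0)) : R = 0 := by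
  by_cases hdeg : 0 < R.degree
  · exfalso
    have hz : Tendsto (fun y : ℝ => ‖(y : ℂ) * Complex.I‖) atTop atTop := by
      have : (fun y : ℝ => ‖(y : ℂ) * Complex.I‖) = fun y : ℝ => |y| := by
        funext y
        simp
      rw [this]
      exact tendsto_abs_atTop_atTop
    have h1 := R.tendsto_norm_atTop hdeg hz
    have h2 : Tendsto (fun y : ℝ => ‖R.eval ((y : ℂ) * Complex.I)‖) atTop (𝓝 0) := by
      simpa using h.norm
    exact not_tendsto_atTop_of_tendsto_nhds h2 h1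
  · have hR : R = C (R.coeff 0) := eq_C_of_degree_le_zero (not_lt.mp hdeg)
    have h3 : Tendsto (fun _ : ℝ => R.coeff 0) atTop (𝓝 0) := by
      refine h.congr fun y => ?_
      rw [hR, eval_C, coeff_C_zero]
    have h4 : R.coeff 0 = 0 := tendsto_nhds_unique tendsto_const_nhds h3
    rw [hR, h4, C_0]

/-- A polynomial invariant under a nonzero translation is constant. -/
theorem inj_poly_const_of_translate (R : ℂ[X]) (M : ℂ) (hM : M ≠ 0)
    (h : ∀ z : ℂ, R.eval (z + M) = R.eval z) : R = C (R.eval 0) := by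
  have hroot : ∀ k : ℕ, (R - C (R.eval 0)).IsRoot ((k : ℂ) * M) := by
    intro k
    induction k with
    | zero => simp [IsRoot]
    | succ k ih =>
      have e : ((k + 1 : ℕ) : ℂ) * M = (k : ℂ) * M + M := by push_cast; ring
      rw [IsRoot, eval_sub, eval_C] at ih ⊢
      rw [e, h]
      exact ih
  have hinf : Set.Infinite {x | (R - C (R.eval 0)).IsRoot x} := by
    have hinj : Function.Injective (fun k : ℕ => (k : ℂ) * M) := by
      intro k l hkl
      have := mul_right_cancel₀ hM hkl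
      exact_mod_cast this
    exact (Set.infinite_range_of_injective hinj).mono (by rintro _ ⟨k, rfl⟩; exact hroot k)
  have := eq_zero_of_infinite_isRoot _ hinf
  exact sub_eq_zero.mp this

theorem inj_coe_vpt (x : ℝ) {y : ℝ} (hy : 0 < y) :
    ((vpt x y : ℍ) : ℂ) = (x : ℂ) + (y : ℂ) * Complex.I := by
  rw [vpt, ofComplex_apply_of_im_pos (by simpa using hy)]

/-- If `A = B + R` with `A` periodic, `B` decaying on vertical lines and `R` a polynomial,
then `R` is constant. -/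
theorem inj_const (A B : ℍ → ℂ) (R : ℂ[X]) (M : ℝ) (hM : M ≠ 0)
    (hper : Function.Periodic (A ∘ ofComplex) M) (hB : DecaysOnLines B)
    (hrel : ∀ τ : ℍ, A τ = B τ + R.eval (τ : ℂ)) : R = C (R.eval 0) := by
  have hR₁ : R.comp (X + C (M : ℂ)) - R = 0 := by
    apply inj_poly_eq_zero_of_tendsto
    have hlim : Tendsto (fun y : ℝ => B (vpt 0 y) - B (vpt M y)) atTop (𝓝 0) := by
      simpa using (hB 0).sub (hB M)
    refine hlim.congr' ?_
    filter_upwards [eventually_gt_atTop (0 : ℝ)] with y hy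
    have h0 : ((vpt 0 y : ℍ) : ℂ) = (y : ℂ) * Complex.I := by
      rw [inj_coe_vpt 0 hy]; simp
    have hMy : ((vpt M y : ℍ) : ℂ) = (y : ℂ) * Complex.I + (M : ℂ) := by
      rw [inj_coe_vpt M hy]; ring
    have hA : A (vpt M y) = A (vpt 0 y) := by
      have := hper ((y : ℂ) * Complex.I)
      simp only [Function.comp_apply] at this
      have e1 : vpt M y = ofComplex ((y : ℂ) * Complex.I + (M : ℂ)) := by
        rw [vpt]; congr 1; ring
      have e2 : vpt 0 y = ofComplex ((y : ℂ) * Complex.I) := by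
        rw [vpt]; congr 1; simp
      rw [e1, e2]
      exact this
    have r0 := hrel (vpt 0 y)
    have rM := hrel (vpt M y)
    rw [h0] at r0
    rw [hMy, hA] at rM
    simp only [eval_sub, eval_comp, eval_add, eval_X, eval_C]
    linear_combination rM - r0
  refine inj_poly_const_of_translate R (M : ℂ) (by exact_mod_cast hM) fun z => ?_
  have := congrArg (eval z) hR₁
  simp only [eval_sub, eval_comp, eval_add, eval_X, eval_C, eval_zero] at this
  exact sub_eq_zero.mp this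

/-- A holomorphic function on `ℍ`, slash-invariant of weight `k ≤ 0` under `Γ₀(N)`, bounded at
all cusps and zero at `i∞`, vanishes. -/
theorem inj_eq_zero_of_modular (N : ℕ) [NeZero N] (k : ℤ) (hk : k ≤ 0) (E : ℍ → ℂ)
    (hinv : ∀ γ ∈ Gamma0 N, E ∣[k] γ = E) (hol : MDiff E)
    (hbdd : ∀ g : SL(2, ℤ), IsBoundedAtImInfty (E ∣[k] g)) (hzero : IsZeroAtImInfty E) :
    E = 0 := by
  let Em : ModularForm (Gamma0 N) k :=
    { toFun := E
      slash_action_eq' := by
        rintro _ ⟨γ, hγ, rfl⟩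
        exact hinv γ hγ
      holo' := hol
      bdd_at_cusps' := fun {c} hc => by
        rw [Subgroup.IsArithmetic.isCusp_iff_isCusp_SL2Z] at hc
        rw [OnePoint.isBoundedAt_iff_forall_SL2Z hc]
        exact fun g _ => hbdd g }
  have hEm : (⇑Em : ℍ → ℂ) = E := rfl
  rcases hk.lt_or_eq with hneg | h0
  · have h1 : Em = 0 := ModularForm.isZero_of_neg_weight hneg Em
    rw [← hEm, h1]
    rfl
  · subst h0
    obtain ⟨c, hc⟩ := ModularForm.eq_const_of_weight_zero Em
    rw [hEm] at hc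
    have h2 : Tendsto E atImInfty (𝓝 c) := by
      rw [hc]
      exact tendsto_const_nhds
    have h3 : c = 0 := tendsto_nhds_unique h2 hzero
    rw [hc, h3]
    rfl

/-- **[INJ]** The period lattice separates points. -/
theorem eq_zero_of_period_eq_zero (N : ℕ) [NeZero N] (n : ℕ)
    (f : CuspForm (Gamma0 N) ((n : ℤ) + 2))
    (h : ∀ γ ∈ Gamma0 N, ∀ P ∈ intPoly n, period N n γ P f = 0) : f = 0 := by
  obtain ⟨p, hp⟩ := exists_isCuspidal_slash N ((n : ℤ) + 2)
  have hF : IsCuspidal 1 ⇑f := isCuspidal_cuspForm N _ f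
  set E : ℍ → ℂ := cuspPrim^[n + 1] ⇑f with hE
  have hEc : IsCuspidal 1 E := isCuspidal_iterate_cuspPrim hF (n + 1)
  set κ : ℂ := (-1 : ℂ) ^ n * (n.factorial : ℂ) with hκdef
  have hκ : κ ≠ 0 :=
    mul_ne_zero (pow_ne_zero _ (by norm_num)) (Nat.cast_ne_zero.mpr n.factorial_ne_zero)
  -- the basic relation
  have hrel : ∀ (g : SL(2, ℤ)) (τ : ℍ), (E ∣[-(n : ℤ)] g) τ =
      (cuspPrim^[n + 1] (⇑f ∣[(n : ℤ) + 2] g)) τ +
        κ⁻¹ * period N n g ((C (denom g τ) * X - C (num g τ)) ^ n) f := by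
    intro g τ
    rw [inj_key, ModularForm.SL_slash_apply, neg_neg, zpow_natCast]
    field_simp
    ring
  -- invariance under `Γ₀(N)`
  have hinv : ∀ γ ∈ Gamma0 N, E ∣[-(n : ℤ)] γ = E := by
    intro γ hγ
    funext τ
    have hdeg : ((C (denom γ τ) * X - C (num γ τ)) ^ n : ℂ[X]).natDegree ≤ n := by
      refine natDegree_pow_le.trans ?_
      have : (C (denom γ τ) * X - C (num γ τ) : ℂ[X]).natDegree ≤ 1 :=
        (natDegree_sub_le _ _).trans (max_le ((natDegree_C_mul_le _ _).trans natDegree_X_le) (by simp))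
      calc n * (C (denom γ τ) * X - C (num γ τ) : ℂ[X]).natDegree ≤ n * 1 :=
            Nat.mul_le_mul_left n this
        _ = n := mul_one n
    rw [hrel γ τ, inj_period_eq_zero N n f h hγ hdeg, mul_zero, add_zero,
      inj_slash_eq N _ f hγ]
  -- boundedness at all cusps
  obtain ⟨M, hMpos, hM⟩ := Subgroup.IsArithmetic.exists_nat_mem_strictPeriods_conj
    ((Gamma0 N : Subgroup SL(2, ℤ)) : Subgroup (GL (Fin 2) ℝ))
  let Es : SlashInvariantForm (Gamma0 N) (-(n : ℤ)) :=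
    { toFun := E
      slash_action_eq' := by
        rintro _ ⟨γ, hγ, rfl⟩
        exact hinv γ hγ }
  have hbdd : ∀ g : SL(2, ℤ), IsBoundedAtImInfty (E ∣[-(n : ℤ)] g) := by
    intro g
    obtain ⟨R, hR⟩ := inj_exists_poly N n f g
    have hEg : IsCuspidal p (cuspPrim^[n + 1] (⇑f ∣[(n : ℤ) + 2] g)) :=
      isCuspidal_iterate_cuspPrim (hp f g) (n + 1)
    have hper : Function.Periodic ((E ∣[-(n : ℤ)] g) ∘ ofComplex) (M : ℝ) := by
      have hmem : ((M : ℕ) : ℝ) ∈ (ConjAct.toConjAct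
          (Matrix.SpecialLinearGroup.mapGL ℝ g)⁻¹ •
            ((Gamma0 N : Subgroup SL(2, ℤ)) : Subgroup (GL (Fin 2) ℝ))).strictPeriods := by
        have := hM g⁻¹
        rwa [map_inv] at this
      exact SlashInvariantFormClass.periodic_comp_ofComplex
        (SlashInvariantForm.translate Es (Matrix.SpecialLinearGroup.mapGL ℝ g)) hmem
    have hrel' : ∀ τ : ℍ, (E ∣[-(n : ℤ)] g) τ =
        (cuspPrim^[n + 1] (⇑f ∣[(n : ℤ) + 2] g)) τ + (C κ⁻¹ * R).eval (τ : ℂ) := by
      intro τ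
      rw [hrel g τ, hR τ, eval_mul, eval_C]
    have hconst := inj_const _ _ (C κ⁻¹ * R) (M : ℝ) (by exact_mod_cast hMpos.ne')
      hper (IsZeroAtImInfty.decaysOnLines hEg.zero) hrel'
    have hfun : (E ∣[-(n : ℤ)] g) = (cuspPrim^[n + 1] (⇑f ∣[(n : ℤ) + 2] g)) +
        Function.const ℍ ((C κ⁻¹ * R).eval 0) := by
      funext τ
      rw [hrel' τ, hconst]
      simp
    rw [hfun]
    exact (UpperHalfPlane.IsZeroAtImInfty.isBoundedAtImInfty hEg.zero).add (Filter.const_boundedAtFilter _ _)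
  -- conclusion
  have hE0 : E = 0 :=
    inj_eq_zero_of_modular N (-(n : ℤ)) (by omega) E hinv hEc.mdiff hbdd hEc.zero
  have hf0 : (⇑f : ℍ → ℂ) = 0 := eq_zero_of_iterate_cuspPrim_eq_zero hF (n + 1) hE0
  exact DFunLike.coe_injective hf0

end Fermat.Agent.S22

end
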