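import Mathlib
import Fermat.Prelude.Def_CuspForm_HeckeAlgebra
import Fermat.Prelude.Thm_ModularForm_sturm_bound_Gamma0
import Fermat.Prelude.Thm_CongruenceSubgroup_one_mem_strictPeriods_Gamma0

/-!
# S22 helper [S22-ZERO]: the degenerate weights (`k ≤ 0` or `k` odd)
-/

set_option autoImplicit false

open scoped MatrixGroups

namespace Fermat.Agent.S22

open CongruenceSubgroup

/-- A cusp form of weight `k ≤ 0` for `Γ₀(N)` vanishes (Sturm bound `0`, and `a₀ = 0`). -/
theorem cuspForm_eq_zero_of_nonpos (N : ℕ) [NeZero N] (k : ℤ) (hk : k ≤ 0)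
    (f : CuspForm (CongruenceSubgroup.Gamma0 N) k) : f = 0 := by
  have hzero : CuspForm.toModularFormₗ f = 0 := by
    apply ModularForm.sturm_bound_Gamma0 N
    intro n hn
    have hb : (k * ((Gamma0 N).index : ℤ)).toNat / 12 = 0 := by
      have h1 : k * ((Gamma0 N).index : ℤ) ≤ 0 :=
        mul_nonpos_of_nonpos_of_nonneg hk (Int.natCast_nonneg _)
      have h2 : (k * ((Gamma0 N).index : ℤ)).toNat = 0 := Int.toNat_of_nonpos h1
      rw [h2]
    rw [hb] at hn
    have hn0 : n = 0 := Nat.le_zero.mp hn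
    subst hn0
    exact CuspFormClass.qExpansion_coeff_zero f one_pos
      (CongruenceSubgroup.one_mem_strictPeriods_Gamma0 N)
  exact CuspForm.toModularFormₗ_injective (by rw [hzero, map_zero])

theorem cuspForm_subsingleton_of_nonpos (N : ℕ) [NeZero N] (k : ℤ) (hk : k ≤ 0) :
    Subsingleton (CuspForm (CongruenceSubgroup.Gamma0 N) k) :=
  ⟨fun f g => by
    rw [cuspForm_eq_zero_of_nonpos N k hk f, cuspForm_eq_zero_of_nonpos N k hk g]⟩

/-- A cusp form of odd weight for `Γ₀(N)` vanishes (since `-1 ∈ Γ₀(N)`). -/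
theorem cuspForm_eq_zero_of_odd (N : ℕ) [NeZero N] (k : ℤ) (hk : Odd k)
    (f : CuspForm (CongruenceSubgroup.Gamma0 N) k) : f = 0 := by
  have hmem : (-1 : GL (Fin 2) ℝ) ∈ ((Gamma0 N : Subgroup SL(2, ℤ)) : Subgroup (GL (Fin 2) ℝ)) := by
    refine ⟨-1, ?_, ?_⟩
    · rw [SetLike.mem_coe, Gamma0_mem]
      simp
    · ext i j
      simp
  have hzero : CuspForm.toModularFormₗ f = 0 :=
    ModularForm.eq_zero_of_neg_one_mem hmem hk _
  exact CuspForm.toModularFormₗ_injective (by rw [hzero, map_zero])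

theorem cuspForm_subsingleton_of_odd (N : ℕ) [NeZero N] (k : ℤ) (hk : Odd k) :
    Subsingleton (CuspForm (CongruenceSubgroup.Gamma0 N) k) :=
  ⟨fun f g => by
    rw [cuspForm_eq_zero_of_odd N k hk f, cuspForm_eq_zero_of_odd N k hk g]⟩

/-- If there are no nonzero cusp forms, the Hecke algebra is trivially finite over `ℤ`. -/
theorem moduleFinite_heckeAlgebra_of_subsingleton (N : ℕ) [NeZero N] (k : ℤ) (S : Set ℕ)
    [Subsingleton (CuspForm (CongruenceSubgroup.Gamma0 N) k)] :
    Module.Finite ℤ (CuspForm.heckeAlgebra N k S) := by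
  have : Subsingleton (Module.End ℂ (CuspForm (CongruenceSubgroup.Gamma0 N) k)) :=
    ⟨fun a b => LinearMap.ext fun x => Subsingleton.elim _ _⟩
  have : Subsingleton (CuspForm.heckeAlgebra N k S) :=
    ⟨fun a b => Subtype.ext (Subsingleton.elim _ _)⟩
  have : Finite (CuspForm.heckeAlgebra N k S) := Finite.of_subsingleton
  exact Module.Finite.of_finite

end Fermat.Agent.S22
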