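import Fermat.Agent.S22.AdjoinLattice
import Fermat.Agent.S22.Zero
import Fermat.Agent.S22.Hecke
import Fermat.Agent.S22.Injective

set_option autoImplicit false

noncomputable section

namespace Fermat.Agent.S22

open UpperHalfPlane Filter Topology Polynomial CongruenceSubgroup
open scoped MatrixGroups ModularForm Manifold

/-! ## main -/

theorem moduleFinite_heckeAlgebra (N : ℕ) [NeZero N] (k : ℤ) (S : Set ℕ) :
    Module.Finite ℤ (CuspForm.heckeAlgebra N k S) := by
  by_cases hk : k ≤ 1
  · haveI : Subsingleton (CuspForm (Gamma0 N) k) := by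
      rcases (show k ≤ 0 ∨ k = 1 by omega) with h0 | h1
      · exact cuspForm_subsingleton_of_nonpos N k h0
      · exact cuspForm_subsingleton_of_odd N k (h1 ▸ odd_one)
    exact moduleFinite_heckeAlgebra_of_subsingleton N k S
  obtain ⟨n, rfl⟩ : ∃ n : ℕ, k = (n : ℤ) + 2 := ⟨(k - 2).toNat, by omega⟩
  refine moduleFinite_adjoin_of_lattice _ (lattice N n) (lattice_fg N n) ?_ ?_
  · intro f hf
    refine eq_zero_of_period_eq_zero N n f fun γ hγ P hP => hf _ (period_mem_lattice N n hγ hP)
  · rintro t (⟨ℓ, hℓ, hℓN, -, rfl⟩ | ⟨q, hqN, hq, -, rfl⟩) ξ hξ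
    · exact lattice_heckeT_stable N n hℓ hℓN hξ
    · exact lattice_heckeU_stable N n hq hqN hξ

end Fermat.Agent.S22

end
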