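import Mathlib

/-!
# S22 helper [S22-AL]: an algebra of endomorphisms preserving a separating lattice of functionals
is a finitely generated `ℤ`-module.
-/

set_option autoImplicit false

namespace Fermat.Agent.S22

/-- If every generator in `T` preserves (by precomposition) the `ℤ`-lattice `L` of functionals,
so does every element of `Algebra.adjoin ℤ T`. -/
theorem adjLat_comp_mem {V : Type*} [AddCommGroup V] [Module ℂ V]
    (T : Set (Module.End ℂ V)) (L : Submodule ℤ (Module.Dual ℂ V))
    (hstab : ∀ t ∈ T, ∀ ξ ∈ L, ξ.comp t ∈ L) :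
    ∀ a ∈ Algebra.adjoin ℤ T, ∀ ξ ∈ L, ξ.comp a ∈ L := by
  intro a ha
  induction ha using Algebra.adjoin_induction with
  | mem t ht => exact hstab t ht
  | algebraMap r =>
    intro ξ hξ
    have e : ξ.comp (algebraMap ℤ (Module.End ℂ V) r) = r • ξ := by
      ext v
      simp
    rw [e]
    exact L.smul_mem r hξ
  | add a b _ _ iha ihb =>
    intro ξ hξ
    rw [LinearMap.comp_add]
    exact L.add_mem (iha ξ hξ) (ihb ξ hξ)
  | mul a b _ _ iha ihb =>
    intro ξ hξ
    have e : ξ.comp (a * b) = (ξ.comp a).comp b := rfl
    rw [e]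
    exact ihb _ (iha ξ hξ)

/-- [S22-AL] A `ℤ`-algebra of endomorphisms of a complex vector space, generated by operators
preserving a finitely generated separating lattice of functionals, is a finite `ℤ`-module. -/
theorem moduleFinite_adjoin_of_lattice {V : Type*} [AddCommGroup V] [Module ℂ V]
    (T : Set (Module.End ℂ V)) (L : Submodule ℤ (Module.Dual ℂ V)) (hfg : L.FG)
    (hsep : ∀ v, (∀ ξ ∈ L, ξ v = 0) → v = 0)
    (hstab : ∀ t ∈ T, ∀ ξ ∈ L, ξ.comp t ∈ L) :
    Module.Finite ℤ (Algebra.adjoin ℤ T) := by
  have hst := adjLat_comp_mem T L hstab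
  obtain ⟨n, s, hs⟩ := Submodule.fg_iff_exists_fin_generating_family.mp hfg
  have hsL : ∀ i, s i ∈ L := fun i => by
    rw [← hs]; exact Submodule.subset_span ⟨i, rfl⟩
  have : IsNoetherian ℤ L := isNoetherian_of_fg_of_noetherian L hfg
  let Ψ : Algebra.adjoin ℤ T →ₗ[ℤ] (Fin n → L) :=
    { toFun := fun a i => ⟨(s i).comp (a : Module.End ℂ V), hst a.1 a.2 (s i) (hsL i)⟩
      map_add' := by
        intro a b
        funext i
        apply Subtype.ext
        simp [LinearMap.comp_add]
      map_smul' := by
        intro m a
        funext i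
        apply Subtype.ext
        ext v
        simp }
  have hΨ : ∀ (a : Algebra.adjoin ℤ T) i, ((Ψ a i : L) : Module.Dual ℂ V) =
      (s i).comp (a : Module.End ℂ V) := fun a i => rfl
  have hinj : Function.Injective Ψ := by
    rw [injective_iff_map_eq_zero]
    intro a ha
    have h1 : ∀ i, (s i).comp (a : Module.End ℂ V) = 0 := by
      intro i
      rw [← hΨ, ha]
      rfl
    have h2 : ∀ ξ ∈ L, ξ.comp (a : Module.End ℂ V) = 0 := by
      intro ξ hξ
      rw [← hs] at hξ
      induction hξ using Submodule.span_induction with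
      | mem x hx =>
        obtain ⟨i, rfl⟩ := hx
        exact h1 i
      | zero => exact LinearMap.zero_comp _
      | add x y _ _ hx hy => rw [LinearMap.add_comp, hx, hy, add_zero]
      | smul m x _ hx =>
        ext v
        have := congrArg (fun f => f v) hx
        simp only [LinearMap.comp_apply, LinearMap.zero_apply] at this
        simp [this]
    apply Subtype.ext
    apply LinearMap.ext
    intro v
    apply hsep
    intro ξ hξ
    have := congrArg (fun f => f v) (h2 ξ hξ)
    simpa using this
  exact Module.Finite.of_injective Ψ hinj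

end Fermat.Agent.S22
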