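import Mathlib
import Fermat.Prelude.Def_CuspForm_HeckeAlgebra
import Fermat.Agent.S22.AdjoinLattice
import Fermat.Agent.S22.Zero

/-!
# S22: the algebraic criterion and the trivial weights
-/

set_option autoImplicit false

open CongruenceSubgroup
open scoped MatrixGroups ModularForm

namespace Fermat.Agent.S22

/-- If a finitely generated `ℤ`-lattice `M` of linear functionals on `V` separates the points of
`V` and is stable under precomposition with every operator in `G`, then the `ℤ`-algebra generated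
by `G` is a finitely generated `ℤ`-module. -/
theorem module_finite_adjoin_of_lattice {V : Type*} [AddCommGroup V] [Module ℂ V]
    (G : Set (Module.End ℂ V)) (M : Submodule ℤ (V →ₗ[ℂ] ℂ)) (hfg : M.FG)
    (hstab : ∀ T ∈ G, ∀ ξ ∈ M, ξ ∘ₗ T ∈ M)
    (hsep : ∀ v : V, (∀ ξ ∈ M, ξ v = 0) → v = 0) :
    Module.Finite ℤ (Algebra.adjoin ℤ G) :=
  moduleFinite_adjoin_of_lattice G M hfg hsep hstab

/-- Cusp forms of weight `≤ 1` on `Γ₀(N)` vanish (weight `≤ 0`: Sturm bound / negative weight;
weight `1`: `-1 ∈ Γ₀(N)`). -/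
theorem cuspForm_eq_zero_of_weight_le_one {N : ℕ} [NeZero N] {k : ℤ} (hk : k ≤ 1)
    (f : CuspForm (Gamma0 N) k) : f = 0 := by
  rcases le_or_gt k 0 with h0 | h0
  · exact cuspForm_eq_zero_of_nonpos N k h0 f
  · have h1 : k = 1 := by omega
    exact cuspForm_eq_zero_of_odd N k (by rw [h1]; exact odd_one) f

end Fermat.Agent.S22
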