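import Mathlib
import Fermat.Prelude.Def_CuspForm_HeckeAlgebra

/-!
# S22: core definitions for the modular-symbol (Eichler period) lattice

Everything lives on functions `ℍ → ℂ`.  Derivatives are taken through `F ∘ ofComplex`.
-/

set_option autoImplicit false

noncomputable section

namespace Fermat.Agent.S22

open UpperHalfPlane Filter Topology Polynomial
open scoped MatrixGroups ModularForm Manifold

/-- `G` is a holomorphic primitive of `F` on the upper half plane. -/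
def IsPrim (G F : ℍ → ℂ) : Prop :=
  ∀ τ : ℍ, HasDerivAt (G ∘ ofComplex) (F τ) (τ : ℂ)

/-- `F` is holomorphic on `ℍ`, periodic of period `h > 0`, and tends to `0` at `i∞`. -/
structure IsCuspidal (h : ℝ) (F : ℍ → ℂ) : Prop where
  pos : 0 < h
  mdiff : MDiff F
  periodic : Function.Periodic (F ∘ ofComplex) h
  zero : IsZeroAtImInfty F

/-- The primitive of `F` which vanishes at `i∞` (junk value `0` if there is none). -/
def cuspPrim (F : ℍ → ℂ) : ℍ → ℂ :=
  open Classical in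
  if h : ∃ G : ℍ → ℂ, IsPrim G F ∧ IsZeroAtImInfty G then h.choose else 0

/-- The point `x + i y` of the upper half plane (junk for `y ≤ 0`). -/
def vpt (x y : ℝ) : ℍ := ofComplex ((x : ℂ) + (y : ℂ) * Complex.I)

/-- `G` tends to zero along every vertical line. -/
def DecaysOnLines (G : ℍ → ℂ) : Prop :=
  ∀ x : ℝ, Tendsto (fun y : ℝ => G (vpt x y)) atTop (𝓝 0)

/-- The function `τ ↦ P(τ)` on the upper half plane. -/
def polyFun (P : ℂ[X]) : ℍ → ℂ := fun τ => P.eval (τ : ℂ)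

/-- `Psi n F P` is the primitive of `F · P` vanishing at `i∞`, for `P` of degree `≤ n`
(repeated integration by parts). -/
def Psi (n : ℕ) (F : ℍ → ℂ) (P : ℂ[X]) : ℍ → ℂ := fun τ =>
  ∑ j ∈ Finset.range (n + 1),
    (-1 : ℂ) ^ j * (cuspPrim^[j + 1] F) τ * (derivative^[j] P).eval (τ : ℂ)

/-- The weight-`n` right action of integral `2 × 2` matrices on polynomials of degree `≤ n`:
`(P | M)(X) = ∑ p_m (aX+b)^m (cX+d)^(n-m)`, i.e. `(cX+d)^n P((aX+b)/(cX+d))`. -/
def polyAct (n : ℕ) (M : Matrix (Fin 2) (Fin 2) ℤ) (P : ℂ[X]) : ℂ[X] :=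
  ∑ m ∈ Finset.range (n + 1),
    C (P.coeff m) * (C (M 0 0 : ℂ) * X + C (M 0 1 : ℂ)) ^ m *
      (C (M 1 0 : ℂ) * X + C (M 1 1 : ℂ)) ^ (n - m)

/-- Polynomials of degree `≤ n` with integer coefficients, as a `ℤ`-submodule of `ℂ[X]`. -/
def intPoly (n : ℕ) : Submodule ℤ ℂ[X] where
  carrier := {P | P.natDegree ≤ n ∧ ∀ m, ∃ a : ℤ, P.coeff m = (a : ℂ)}
  zero_mem' := ⟨by simp, fun _ => ⟨0, by simp⟩⟩
  add_mem' := by
    rintro P Q ⟨hP, hP'⟩ ⟨hQ, hQ'⟩
    refine ⟨(natDegree_add_le P Q).trans (max_le hP hQ), fun m => ?_⟩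
    obtain ⟨a, ha⟩ := hP' m
    obtain ⟨b, hb⟩ := hQ' m
    exact ⟨a + b, by simp [ha, hb]⟩
  smul_mem' := by
    rintro c P ⟨hP, hP'⟩
    refine ⟨(natDegree_smul_le c P).trans hP, fun m => ?_⟩
    obtain ⟨a, ha⟩ := hP' m
    exact ⟨c * a, by simp [ha]⟩

/-- The period of `F` against `P` along `g ∈ SL(2,ℤ)` in weight `n + 2`, computed at the base
point `τ` (it is independent of `τ`). -/
def periodAt (n : ℕ) (g : SL(2, ℤ)) (P : ℂ[X]) (F : ℍ → ℂ) (τ : ℍ) : ℂ :=
  Psi n F P (g • τ) - Psi n (F ∣[(n : ℤ) + 2] g) (polyAct n (g : Matrix (Fin 2) (Fin 2) ℤ) P) τ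

end Fermat.Agent.S22

end
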