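import Fermat.Agent.S22.Defs
import Fermat.Prelude.Thm_ModularForm_sturm_bound_Gamma0

/-!
# S22: end game of the separation argument

A holomorphic function on `ℍ` which is weight `-n` invariant under `Γ₀(N)`, bounded at all cusps
and zero at `i∞` vanishes.  A polynomial which is periodic is constant.
-/

set_option autoImplicit false

noncomputable section

namespace Fermat.Agent.S22

open UpperHalfPlane Filter Topology Polynomial CongruenceSubgroup
open scoped MatrixGroups ModularForm Manifold

theorem eq_zero_of_slash_invariant_of_bounded (N : ℕ) [NeZero N] (n : ℕ) (E : ℍ → ℂ)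
    (hE : MDiff E)
    (hinv : ∀ γ ∈ Gamma0 N, E ∣[-(n : ℤ)] γ = E)
    (hbdd : ∀ g : SL(2, ℤ), IsBoundedAtImInfty (E ∣[-(n : ℤ)] g))
    (hzero : IsZeroAtImInfty E) : E = 0 := by
  let Ef : ModularForm (Gamma0 N) (-(n : ℤ)) :=
    { toFun := E
      slash_action_eq' := fun γ hγ => by
        obtain ⟨g, hg, rfl⟩ := hγ
        exact hinv g hg
      holo' := hE
      bdd_at_cusps' := fun {c} hc => by
        rw [Subgroup.IsArithmetic.isCusp_iff_isCusp_SL2Z] at hc
        rw [OnePoint.isBoundedAt_iff_forall_SL2Z hc]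
        intro g _
        exact hbdd g }
  have hEf : Ef = 0 := by
    apply ModularForm.sturm_bound_Gamma0 N
    intro m hm
    have hb : (-(n : ℤ) * ((Gamma0 N).index : ℤ)).toNat / 12 = 0 := by
      have h1 : -(n : ℤ) * ((Gamma0 N).index : ℤ) ≤ 0 :=
        mul_nonpos_of_nonpos_of_nonneg (by omega) (Int.natCast_nonneg _)
      rw [Int.toNat_of_nonpos h1]
    rw [hb] at hm
    obtain rfl : m = 0 := Nat.le_zero.mp hm
    rw [qExpansion_coeff]
    have : cuspFunction 1 (⇑Ef) 0 = 0 := hzero.cuspFunction_apply_zero one_pos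
    simp [this]
  funext τ
  have := congrArg (fun F : ModularForm (Gamma0 N) (-(n : ℤ)) => F τ) hEf
  exact this

theorem polynomial_const_of_periodic (Q : ℂ[X]) (h : ℝ) (hh : h ≠ 0)
    (hQ : ∀ τ : ℍ, Q.eval ((τ : ℂ) + h) = Q.eval (τ : ℂ)) :
    ∀ τ : ℍ, Q.eval (τ : ℂ) = Q.eval 0 := by
  -- WLOG `h > 0`
  have key : ∀ (h : ℝ), 0 < h → (∀ τ : ℍ, Q.eval ((τ : ℂ) + h) = Q.eval (τ : ℂ)) →
      ∀ τ : ℍ, Q.eval (τ : ℂ) = Q.eval 0 := by
    intro h hh hQ τ
    -- `Q - C (Q τ)` vanishes at `τ + m h` for all `m : ℕ`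
    have hm : ∀ m : ℕ, Q.eval ((τ : ℂ) + m * h) = Q.eval (τ : ℂ) := by
      intro m
      induction m with
      | zero => simp
      | succ m ih =>
        have him : 0 < ((τ : ℂ) + m * h).im := by
          simpa using τ.im_pos
        have := hQ ⟨_, him⟩
        simp only at this
        rw [← ih, ← this]
        congr 1
        push_cast
        ring
    have hroots : (Q - C (Q.eval (τ : ℂ))) = 0 := by
      apply Polynomial.eq_zero_of_infinite_isRoot
      have hinj : Function.Injective (fun m : ℕ => (τ : ℂ) + m * h) := by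
        intro a b hab
        simp only [add_right_inj] at hab
        have hhC : (h : ℂ) ≠ 0 := by exact_mod_cast hh.ne'
        have := mul_right_cancel₀ hhC hab
        exact_mod_cast this
      refine Set.Infinite.mono ?_ (Set.infinite_range_of_injective hinj)
      rintro _ ⟨m, rfl⟩
      simp [Polynomial.IsRoot, hm m]
    have h0 := congrArg (Polynomial.eval 0) hroots
    simp only [eval_sub, eval_C, eval_zero] at h0
    exact (sub_eq_zero.mp h0).symm
  rcases lt_or_gt_of_ne hh with hneg | hpos
  · refine key (-h) (by linarith) fun τ => ?_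
    have him : 0 < ((τ : ℂ) + ((-h : ℝ) : ℂ)).im := by simpa using τ.im_pos
    have := hQ ⟨_, him⟩
    simp only at this
    rw [← this]
    congr 1
    push_cast
    ring
  · exact key h hpos hQ

end Fermat.Agent.S22

end
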