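import Fermat.Agent.S22.Defs

set_option autoImplicit false

noncomputable section

namespace Fermat.Agent.S22

open UpperHalfPlane Filter Topology Polynomial CongruenceSubgroup
open scoped MatrixGroups ModularForm Manifold

/-! ## [POLY] polynomial action -/

theorem polyAct_natDegree_linear_le (a b : ℂ) : (C a * X + C b : ℂ[X]).natDegree ≤ 1 := by
  compute_degree

theorem natDegree_polyAct_le (n : ℕ) (M : Matrix (Fin 2) (Fin 2) ℤ) (P : ℂ[X]) :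
    (polyAct n M P).natDegree ≤ n := by
  unfold polyAct
  apply natDegree_sum_le_of_forall_le
  intro m hm
  have hm' : m ≤ n := by
    have := Finset.mem_range.mp hm
    omega
  have h1 : ((C (M 0 0 : ℂ) * X + C (M 0 1 : ℂ) : ℂ[X]) ^ m).natDegree ≤ m := by
    refine (natDegree_pow_le).trans ?_
    have := polyAct_natDegree_linear_le (M 0 0 : ℂ) (M 0 1 : ℂ)
    nlinarith
  have h2 : ((C (M 1 0 : ℂ) * X + C (M 1 1 : ℂ) : ℂ[X]) ^ (n - m)).natDegree ≤ n - m := by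
    refine (natDegree_pow_le).trans ?_
    have := polyAct_natDegree_linear_le (M 1 0 : ℂ) (M 1 1 : ℂ)
    nlinarith
  calc _ ≤ (C (P.coeff m) * (C (M 0 0 : ℂ) * X + C (M 0 1 : ℂ)) ^ m).natDegree +
        ((C (M 1 0 : ℂ) * X + C (M 1 1 : ℂ) : ℂ[X]) ^ (n - m)).natDegree := natDegree_mul_le
    _ ≤ ((C (P.coeff m) : ℂ[X]).natDegree +
        ((C (M 0 0 : ℂ) * X + C (M 0 1 : ℂ) : ℂ[X]) ^ m).natDegree) + (n - m) :=
        Nat.add_le_add natDegree_mul_le h2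
    _ ≤ (0 + m) + (n - m) := by
        have := natDegree_C (P.coeff m)
        omega
    _ = n := by omega

theorem polyAct_mem_lifts_iff (P : ℂ[X]) :
    P ∈ Polynomial.lifts (Int.castRingHom ℂ) ↔ ∀ m, ∃ a : ℤ, P.coeff m = (a : ℂ) := by
  rw [Polynomial.lifts_iff_coeff_lifts]
  constructor
  · intro h m
    obtain ⟨a, ha⟩ := h m
    exact ⟨a, by rw [← ha]; rfl⟩
  · intro h m
    obtain ⟨a, ha⟩ := h m
    exact ⟨a, by rw [ha]; rfl⟩

theorem polyAct_mem_intPoly {n : ℕ} (M : Matrix (Fin 2) (Fin 2) ℤ) {P : ℂ[X]}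
    (hP : P ∈ intPoly n) : polyAct n M P ∈ intPoly n := by
  refine ⟨natDegree_polyAct_le n M P, ?_⟩
  rw [← polyAct_mem_lifts_iff]
  have hC : ∀ a : ℤ, (C (a : ℂ) : ℂ[X]) ∈ Polynomial.lifts (Int.castRingHom ℂ) := fun a =>
    Polynomial.C_mem_lifts (Int.castRingHom ℂ) a
  have hX : (X : ℂ[X]) ∈ Polynomial.lifts (Int.castRingHom ℂ) :=
    Polynomial.X_mem_lifts (Int.castRingHom ℂ)
  unfold polyAct
  refine Subsemiring.sum_mem _ fun m _ => ?_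
  obtain ⟨a, ha⟩ := hP.2 m
  rw [ha]
  refine Subsemiring.mul_mem _ (Subsemiring.mul_mem _ (hC a) ?_) ?_
  · exact Subsemiring.pow_mem _ (Subsemiring.add_mem _ (Subsemiring.mul_mem _ (hC _) hX) (hC _)) _
  · exact Subsemiring.pow_mem _ (Subsemiring.add_mem _ (Subsemiring.mul_mem _ (hC _) hX) (hC _)) _

theorem polyAct_add (n : ℕ) (M : Matrix (Fin 2) (Fin 2) ℤ) (P Q : ℂ[X]) :
    polyAct n M (P + Q) = polyAct n M P + polyAct n M Q := by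
  unfold polyAct
  rw [← Finset.sum_add_distrib]
  refine Finset.sum_congr rfl fun m _ => ?_
  rw [coeff_add, C_add]
  ring

theorem polyAct_smul (n : ℕ) (M : Matrix (Fin 2) (Fin 2) ℤ) (c : ℂ) (P : ℂ[X]) :
    polyAct n M (c • P) = c • polyAct n M P := by
  unfold polyAct
  rw [Finset.smul_sum]
  refine Finset.sum_congr rfl fun m _ => ?_
  rw [coeff_smul, smul_eq_mul, C_mul, smul_eq_C_mul]
  ring

theorem eval_polyAct {n : ℕ} (M : Matrix (Fin 2) (Fin 2) ℤ) {P : ℂ[X]} (hP : P.natDegree ≤ n)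
    (z : ℂ) (hz : (M 1 0 : ℂ) * z + (M 1 1 : ℂ) ≠ 0) :
    (polyAct n M P).eval z = ((M 1 0 : ℂ) * z + (M 1 1 : ℂ)) ^ n *
      P.eval (((M 0 0 : ℂ) * z + (M 0 1 : ℂ)) / ((M 1 0 : ℂ) * z + (M 1 1 : ℂ))) := by
  unfold polyAct
  rw [eval_finsetSum, eval_eq_sum_range' (Nat.lt_succ_of_le hP), Finset.mul_sum]
  refine Finset.sum_congr rfl fun m hm => ?_
  have hm' : m ≤ n := by
    have := Finset.mem_range.mp hm
    omega
  simp only [eval_mul, eval_C, eval_pow, eval_add, eval_X]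
  generalize (M 1 0 : ℂ) * z + (M 1 1 : ℂ) = B at hz ⊢
  generalize (M 0 0 : ℂ) * z + (M 0 1 : ℂ) = A
  have e : B ^ n = B ^ (n - m) * B ^ m := by
    rw [← pow_add]
    congr 1
    omega
  have hBm : B ^ m ≠ 0 := pow_ne_zero _ hz
  rw [e, div_pow]
  field_simp

theorem polyAct_one {n : ℕ} {P : ℂ[X]} (hP : P.natDegree ≤ n) : polyAct n 1 P = P := by
  unfold polyAct
  conv_rhs => rw [as_sum_range' P (n + 1) (Nat.lt_succ_of_le hP)]
  refine Finset.sum_congr rfl fun m _ => ?_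
  simp [← C_mul_X_pow_eq_monomial]

/-- The upper half plane, as a subset of `ℂ`, is infinite. -/
theorem polyAct_infinite_upper : {z : ℂ | 0 < z.im}.Infinite := by
  have hinj : Function.Injective (fun m : ℕ => ((m : ℂ) + 1) * Complex.I) := by
    intro a b hab
    have := congrArg Complex.im hab
    simp at this
    exact_mod_cast this
  refine Set.infinite_of_injective_forall_mem hinj fun m => ?_
  simp
  positivity

/-- Two polynomials agreeing on the upper half plane are equal. -/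
theorem polyAct_eq_of_eval_upper {p q : ℂ[X]} (h : ∀ z : ℂ, 0 < z.im → p.eval z = q.eval z) :
    p = q :=
  Polynomial.eq_of_infinite_eval_eq p q (polyAct_infinite_upper.mono fun z hz => h z hz)

/-- A real linear form with nonzero coefficient vector does not vanish on the upper half
plane. -/
theorem polyAct_linear_ne_zero {c d : ℤ} (h : c ≠ 0 ∨ d ≠ 0) {z : ℂ} (hz : 0 < z.im) :
    (c : ℂ) * z + (d : ℂ) ≠ 0 := by
  intro h0
  have him := congrArg Complex.im h0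
  have hre := congrArg Complex.re h0
  simp at him hre
  rcases him with hc | hz0
  · have hc' : c = 0 := by exact_mod_cast hc
    rw [hc'] at hre
    simp at hre
    rcases h with h | h
    · exact h hc'
    · exact h (by exact_mod_cast hre)
  · exact hz.ne' hz0

theorem polyAct_row_ne_zero {M : Matrix (Fin 2) (Fin 2) ℤ} (h : M.det ≠ 0) :
    M 1 0 ≠ 0 ∨ M 1 1 ≠ 0 := by
  by_contra hcon
  rw [not_or, not_not, not_not] at hcon
  apply h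
  rw [Matrix.det_fin_two, hcon.1, hcon.2]
  ring

theorem polyAct_mul {n : ℕ} (M₁ M₂ : Matrix (Fin 2) (Fin 2) ℤ) (h₁ : 0 < M₁.det)
    (h₂ : 0 < M₂.det) {P : ℂ[X]} (hP : P.natDegree ≤ n) :
    polyAct n (M₁ * M₂) P = polyAct n M₂ (polyAct n M₁ P) := by
  apply polyAct_eq_of_eval_upper
  intro z hz
  have hdet : (M₁ * M₂).det ≠ 0 := by
    rw [Matrix.det_mul]
    exact (mul_pos h₁ h₂).ne'
  have hV : (M₂ 1 0 : ℂ) * z + (M₂ 1 1 : ℂ) ≠ 0 :=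
    polyAct_linear_ne_zero (polyAct_row_ne_zero h₂.ne') hz
  have hW : ((M₁ * M₂) 1 0 : ℂ) * z + ((M₁ * M₂) 1 1 : ℂ) ≠ 0 :=
    polyAct_linear_ne_zero (polyAct_row_ne_zero hdet) hz
  have e10 : (M₁ * M₂) 1 0 = M₁ 1 0 * M₂ 0 0 + M₁ 1 1 * M₂ 1 0 := by
    simp [Matrix.mul_apply, Fin.sum_univ_two]
  have e11 : (M₁ * M₂) 1 1 = M₁ 1 0 * M₂ 0 1 + M₁ 1 1 * M₂ 1 1 := by
    simp [Matrix.mul_apply, Fin.sum_univ_two]
  have e00 : (M₁ * M₂) 0 0 = M₁ 0 0 * M₂ 0 0 + M₁ 0 1 * M₂ 1 0 := by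
    simp [Matrix.mul_apply, Fin.sum_univ_two]
  have e01 : (M₁ * M₂) 0 1 = M₁ 0 0 * M₂ 0 1 + M₁ 0 1 * M₂ 1 1 := by
    simp [Matrix.mul_apply, Fin.sum_univ_two]
  obtain ⟨U, hU⟩ : ∃ U : ℂ, U = (M₂ 0 0 : ℂ) * z + (M₂ 0 1 : ℂ) := ⟨_, rfl⟩
  obtain ⟨V, hVdef⟩ : ∃ V : ℂ, V = (M₂ 1 0 : ℂ) * z + (M₂ 1 1 : ℂ) := ⟨_, rfl⟩
  rw [← hVdef] at hV
  have hlin : V * ((M₁ 1 0 : ℂ) * (U / V) + (M₁ 1 1 : ℂ)) =
      (M₁ 1 0 : ℂ) * U + (M₁ 1 1 : ℂ) * V := by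
    field_simp
  have hlin' : V * ((M₁ 0 0 : ℂ) * (U / V) + (M₁ 0 1 : ℂ)) =
      (M₁ 0 0 : ℂ) * U + (M₁ 0 1 : ℂ) * V := by
    field_simp
  have a1 : ((M₁ 1 0 : ℂ) * (M₂ 0 0 : ℂ) + (M₁ 1 1 : ℂ) * (M₂ 1 0 : ℂ)) * z +
      ((M₁ 1 0 : ℂ) * (M₂ 0 1 : ℂ) + (M₁ 1 1 : ℂ) * (M₂ 1 1 : ℂ)) =
      V * ((M₁ 1 0 : ℂ) * (U / V) + (M₁ 1 1 : ℂ)) := by
    rw [hlin, hU, hVdef]
    ring
  have a0 : ((M₁ 0 0 : ℂ) * (M₂ 0 0 : ℂ) + (M₁ 0 1 : ℂ) * (M₂ 1 0 : ℂ)) * z +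
      ((M₁ 0 0 : ℂ) * (M₂ 0 1 : ℂ) + (M₁ 0 1 : ℂ) * (M₂ 1 1 : ℂ)) =
      V * ((M₁ 0 0 : ℂ) * (U / V) + (M₁ 0 1 : ℂ)) := by
    rw [hlin', hU, hVdef]
    ring
  have hW' : (M₁ 1 0 : ℂ) * (U / V) + (M₁ 1 1 : ℂ) ≠ 0 := by
    intro h0
    apply hW
    rw [e10, e11]
    push_cast
    rw [a1, h0, mul_zero]
  rw [eval_polyAct (M₁ * M₂) hP z hW, eval_polyAct M₂ (natDegree_polyAct_le n M₁ P) z
    (by rw [← hVdef]; exact hV), ← hU, ← hVdef,
    eval_polyAct M₁ hP (U / V) hW', e10, e11, e00, e01]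
  push_cast
  rw [a1, a0, mul_div_mul_left _ _ hV, mul_pow, mul_assoc]

/-- the key identity `(X - gτ)^n | g = (cτ+d)^(-n) (X - τ)^n` -/
theorem polyAct_X_sub_C_pow (n : ℕ) (g : SL(2, ℤ)) (τ : ℍ) :
    polyAct n (g : Matrix (Fin 2) (Fin 2) ℤ) ((X - C ((g • τ : ℍ) : ℂ)) ^ n) =
      C ((denom g τ ^ n)⁻¹) * (X - C (τ : ℂ)) ^ n := by
  apply polyAct_eq_of_eval_upper
  intro z hz
  have hdet : (g : Matrix (Fin 2) (Fin 2) ℤ).det ≠ 0 := by
    rw [g.det_coe]; exact one_ne_zero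
  have hV : ((g : Matrix (Fin 2) (Fin 2) ℤ) 1 0 : ℂ) * z +
      ((g : Matrix (Fin 2) (Fin 2) ℤ) 1 1 : ℂ) ≠ 0 :=
    polyAct_linear_ne_zero (polyAct_row_ne_zero hdet) hz
  have hdeg : ((X - C ((g • τ : ℍ) : ℂ)) ^ n : ℂ[X]).natDegree ≤ n := by
    refine natDegree_pow_le.trans ?_
    rw [natDegree_X_sub_C, mul_one]
  rw [eval_polyAct _ hdeg z hV]
  simp only [eval_mul, eval_C, eval_pow, eval_sub, eval_X]
  have hden : denom g τ ≠ 0 := denom_ne_zero g τ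
  have hdenom : denom g τ = ((g : Matrix (Fin 2) (Fin 2) ℤ) 1 0 : ℂ) * (τ : ℂ) +
      ((g : Matrix (Fin 2) (Fin 2) ℤ) 1 1 : ℂ) := by
    rw [ModularGroup.denom_apply]
  have hsmul : ((g • τ : ℍ) : ℂ) = (((g : Matrix (Fin 2) (Fin 2) ℤ) 0 0 : ℂ) * (τ : ℂ) +
      ((g : Matrix (Fin 2) (Fin 2) ℤ) 0 1 : ℂ)) /
      (((g : Matrix (Fin 2) (Fin 2) ℤ) 1 0 : ℂ) * (τ : ℂ) +
        ((g : Matrix (Fin 2) (Fin 2) ℤ) 1 1 : ℂ)) := by
    rw [UpperHalfPlane.coe_specialLinearGroup_apply]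
    simp
  have hdet1 : ((g : Matrix (Fin 2) (Fin 2) ℤ) 0 0 : ℂ) * ((g : Matrix (Fin 2) (Fin 2) ℤ) 1 1 : ℂ)
      - ((g : Matrix (Fin 2) (Fin 2) ℤ) 0 1 : ℂ) * ((g : Matrix (Fin 2) (Fin 2) ℤ) 1 0 : ℂ) = 1 := by
    have := g.det_coe
    rw [Matrix.det_fin_two] at this
    exact_mod_cast this
  rw [hsmul, hdenom, ← inv_pow, ← mul_pow, ← mul_pow]
  rw [hdenom] at hden
  congr 1
  generalize ((g : Matrix (Fin 2) (Fin 2) ℤ) 0 0 : ℂ) = a at *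
  generalize ((g : Matrix (Fin 2) (Fin 2) ℤ) 0 1 : ℂ) = b at *
  generalize ((g : Matrix (Fin 2) (Fin 2) ℤ) 1 0 : ℂ) = c at *
  generalize ((g : Matrix (Fin 2) (Fin 2) ℤ) 1 1 : ℂ) = d at *
  field_simp
  linear_combination (z - (τ : ℂ)) * hdet1

/-- every polynomial of degree `≤ n` is a complex combination of integral ones -/
theorem span_intPoly (n : ℕ) {P : ℂ[X]} (hP : P.natDegree ≤ n) :
    P ∈ Submodule.span ℂ ((intPoly n : Set ℂ[X])) := by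
  rw [as_sum_range' P (n + 1) (Nat.lt_succ_of_le hP)]
  refine Submodule.sum_mem _ fun m hm => ?_
  have hm' : m ≤ n := by
    have := Finset.mem_range.mp hm
    omega
  have hX : (X ^ m : ℂ[X]) ∈ intPoly n := by
    refine ⟨(natDegree_X_pow_le m).trans hm', fun j => ?_⟩
    rw [coeff_X_pow]
    split_ifs
    · exact ⟨1, by simp⟩
    · exact ⟨0, by simp⟩
  have e : monomial m (P.coeff m) = (P.coeff m) • (X ^ m : ℂ[X]) := by
    rw [smul_eq_C_mul, C_mul_X_pow_eq_monomial]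
  rw [e]
  exact Submodule.smul_mem _ _ (Submodule.subset_span hX)

end Fermat.Agent.S22

end
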