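import Fermat.Agent.S22.Psi
import Fermat.Agent.S22.PolyAct
import Fermat.Prelude.Thm_Subgroup_IsArithmetic_exists_nat_mem_strictPeriods_conj
import Fermat.Prelude.Thm_CongruenceSubgroup_one_mem_strictPeriods_Gamma0

set_option autoImplicit false
set_option linter.style.haveILetI false

noncomputable section

namespace Fermat.Agent.S22

open UpperHalfPlane Filter Topology Polynomial CongruenceSubgroup
open scoped MatrixGroups ModularForm Manifold

/-! ## [PER] periods -/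

theorem per_smul_eq (g : SL(2, ℤ)) (τ : ℍ) : g • τ = (g : GL (Fin 2) ℝ) • τ := rfl

theorem per_det (g : SL(2, ℤ)) : (g : GL (Fin 2) ℝ).val.det = 1 :=
  (Matrix.SpecialLinearGroup.map (Int.castRingHom ℝ) g).det_coe

theorem per_det_pos (g : SL(2, ℤ)) : 0 < (g : GL (Fin 2) ℝ).val.det := by
  rw [per_det]; exact one_pos

theorem per_denom (g : SL(2, ℤ)) (τ : ℍ) :
    denom g τ = ((g.1 1 0 : ℤ) : ℂ) * τ + ((g.1 1 1 : ℤ) : ℂ) := by
  simp [denom]

theorem per_coe_smul (g : SL(2, ℤ)) (τ : ℍ) :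
    ((g • τ : ℍ) : ℂ) = (((g.1 0 0 : ℤ) : ℂ) * τ + ((g.1 0 1 : ℤ) : ℂ)) /
      (((g.1 1 0 : ℤ) : ℂ) * τ + ((g.1 1 1 : ℤ) : ℂ)) := by
  rw [UpperHalfPlane.specialLinearGroup_apply]
  simp

theorem per_denom_ne_zero (g : SL(2, ℤ)) (τ : ℍ) :
    ((g.1 1 0 : ℤ) : ℂ) * τ + ((g.1 1 1 : ℤ) : ℂ) ≠ 0 := by
  rw [← per_denom]
  exact denom_ne_zero _ τ

/-- chain rule: primitive composed with a Moebius transformation -/
theorem IsPrim.comp_smul {G F : ℍ → ℂ} (hG : IsPrim G F) (g : SL(2, ℤ)) :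
    IsPrim (fun τ => G (g • τ)) (fun τ => F (g • τ) * denom g τ ^ (-2 : ℤ)) := by
  intro τ
  have hg := per_det_pos g
  have h1 := (UpperHalfPlane.hasStrictDerivAt_smul hg τ).hasDerivAt
  have h2 := hG (g • τ)
  have h3 : HasDerivAt ((G ∘ ofComplex) ∘ (fun z => (((g : GL (Fin 2) ℝ) • ofComplex z : ℍ) : ℂ)))
      (F (g • τ) * (((g : GL (Fin 2) ℝ).val.det : ℂ) / denom g τ ^ 2)) (τ : ℂ) := by
    refine HasDerivAt.comp (τ : ℂ) ?_ h1
    rw [ofComplex_apply]
    exact h2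
  have h4 : ((G ∘ ofComplex) ∘ (fun z => (((g : GL (Fin 2) ℝ) • ofComplex z : ℍ) : ℂ))) =
      (fun τ => G (g • τ)) ∘ ofComplex := by
    funext z
    simp only [Function.comp_apply, ofComplex_apply]
    rfl
  rw [h4] at h3
  convert h3 using 1
  rw [per_det]
  simp only [Complex.ofReal_one, one_div, zpow_neg]
  rfl

/-- the two primitives entering `periodAt` have the same derivative -/
theorem per_deriv_eq {F : ℍ → ℂ} {n : ℕ} (g : SL(2, ℤ)) {P : ℂ[X]} (hP : P.natDegree ≤ n) :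
    (fun τ => (F * polyFun P) (g • τ) * denom g τ ^ (-2 : ℤ)) =
      (F ∣[(n : ℤ) + 2] g) * polyFun (polyAct n (g : Matrix (Fin 2) (Fin 2) ℤ) P) := by
  funext τ
  have hd := per_denom_ne_zero g τ
  have hd' : denom g τ ≠ 0 := denom_ne_zero _ τ
  simp only [Pi.mul_apply, polyFun, ModularForm.SL_slash_apply]
  rw [eval_polyAct _ hP _ hd, ← per_coe_smul, ← per_denom]
  have hz : denom g τ ^ (-((n : ℤ) + 2)) * denom g τ ^ n = denom g τ ^ (-2 : ℤ) := by
    rw [← zpow_natCast (denom g τ) n, ← zpow_add₀ hd']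
    congr 1
    ring
  rw [← hz]
  ring

theorem periodAt_const {h h' : ℝ} {F : ℍ → ℂ} {n : ℕ} {g : SL(2, ℤ)} (hF : IsCuspidal h F)
    (hFg : IsCuspidal h' (F ∣[(n : ℤ) + 2] g)) {P : ℂ[X]} (hP : P.natDegree ≤ n) (τ τ' : ℍ) :
    periodAt n g P F τ = periodAt n g P F τ' := by
  have hA := (isPrim_Psi hF hP).comp_smul g
  rw [per_deriv_eq g hP] at hA
  have hB := isPrim_Psi hFg (natDegree_polyAct_le n (g : Matrix (Fin 2) (Fin 2) ℤ) P)
  obtain ⟨c, hc⟩ := hA.eq_add_const hB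
  simp only [periodAt]
  rw [hc τ, hc τ']
  ring


theorem isCuspidal_cuspForm (N : ℕ) [NeZero N] (k : ℤ) (f : CuspForm (Gamma0 N) k) :
    IsCuspidal 1 ⇑f where
  pos := one_pos
  mdiff := CuspFormClass.holo f
  periodic := by
    have := SlashInvariantFormClass.periodic_comp_ofComplex f
      (CongruenceSubgroup.one_mem_strictPeriods_Gamma0 N)
    exact this
  zero := CuspFormClass.zero_at_infty f

/-- all `SL(2,ℤ)`-translates of a cusp form on `Γ₀(N)` are cuspidal with a common period -/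
theorem exists_isCuspidal_slash (N : ℕ) [NeZero N] (k : ℤ) :
    ∃ h : ℝ, ∀ (f : CuspForm (Gamma0 N) k) (g : SL(2, ℤ)), IsCuspidal h (⇑f ∣[k] g) := by
  obtain ⟨M, hM, hper⟩ := Subgroup.IsArithmetic.exists_nat_mem_strictPeriods_conj
    ((Gamma0 N : Subgroup SL(2, ℤ)) : Subgroup (GL (Fin 2) ℝ))
  refine ⟨M, fun f g => ⟨by exact_mod_cast hM, ?_, ?_, ?_⟩⟩
  · exact (CuspFormClass.holo f).slash k g
  · have h1 := hper g⁻¹
    rw [map_inv] at h1
    have := SlashInvariantFormClass.periodic_comp_ofComplex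
      (CuspForm.translate f (g : GL (Fin 2) ℝ)) h1
    exact this
  · exact CuspFormClass.zero_at_infty_slash f g

theorem per_periodAt_add (N : ℕ) [NeZero N] (n : ℕ) (g : SL(2, ℤ)) (P : ℂ[X])
    (f₁ f₂ : CuspForm (Gamma0 N) ((n : ℤ) + 2)) (τ : ℍ) :
    periodAt n g P (⇑(f₁ + f₂)) τ = periodAt n g P (⇑f₁) τ + periodAt n g P (⇑f₂) τ := by
  obtain ⟨h, hh⟩ := exists_isCuspidal_slash N ((n : ℤ) + 2)
  simp only [periodAt, FunLike.coe_add, SlashAction.add_slash]
  rw [Psi_add_left (isCuspidal_cuspForm N _ f₁) (isCuspidal_cuspForm N _ f₂),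
    Psi_add_left (hh f₁ g) (hh f₂ g)]
  simp only [Pi.add_apply]
  ring

theorem per_periodAt_smul (N : ℕ) [NeZero N] (n : ℕ) (g : SL(2, ℤ)) (P : ℂ[X]) (c : ℂ)
    (f : CuspForm (Gamma0 N) ((n : ℤ) + 2)) (τ : ℍ) :
    periodAt n g P (⇑(c • f)) τ = c * periodAt n g P (⇑f) τ := by
  obtain ⟨h, hh⟩ := exists_isCuspidal_slash N ((n : ℤ) + 2)
  simp only [periodAt, FunLike.coe_smul, ModularForm.SL_smul_slash]
  rw [Psi_smul_left (isCuspidal_cuspForm N _ f), Psi_smul_left (hh f g)]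
  simp only [Pi.smul_apply, smul_eq_mul]
  ring

/-- the period functional -/
def period (N : ℕ) [NeZero N] (n : ℕ) (g : SL(2, ℤ)) (P : ℂ[X]) :
    Module.Dual ℂ (CuspForm (Gamma0 N) ((n : ℤ) + 2)) where
  toFun f := periodAt n g P (⇑f) I
  map_add' := by
    intro f₁ f₂
    exact per_periodAt_add N n g P f₁ f₂ I
  map_smul' := by
    intro c f
    exact per_periodAt_smul N n g P c f I

theorem period_apply (N : ℕ) [NeZero N] (n : ℕ) (g : SL(2, ℤ)) (P : ℂ[X])
    (f : CuspForm (Gamma0 N) ((n : ℤ) + 2)) : period N n g P f = periodAt n g P (⇑f) I := rfl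

theorem per_slash_eq (N : ℕ) [NeZero N] (k : ℤ) {γ : SL(2, ℤ)} (hγ : γ ∈ Gamma0 N)
    (f : CuspForm (Gamma0 N) k) : (⇑f) ∣[k] γ = ⇑f := by
  rw [ModularForm.SL_slash]
  exact SlashInvariantForm.slash_action_eqn f _ (Subgroup.mem_map_of_mem _ hγ)

/-- for `γ ∈ Γ₀(N)` the period is `Ψ_P(γτ) - Ψ_{P|γ}(τ)` at any base point -/
theorem period_eq (N : ℕ) [NeZero N] (n : ℕ) {γ : SL(2, ℤ)} (hγ : γ ∈ Gamma0 N) {P : ℂ[X]}
    (hP : P.natDegree ≤ n) (f : CuspForm (Gamma0 N) ((n : ℤ) + 2)) (τ : ℍ) :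
    period N n γ P f =
      Psi n (⇑f) P (γ • τ) - Psi n (⇑f) (polyAct n (γ : Matrix (Fin 2) (Fin 2) ℤ) P) τ := by
  have hf := isCuspidal_cuspForm N _ f
  have hsl := per_slash_eq N _ hγ f
  have hfγ : IsCuspidal 1 ((⇑f) ∣[(n : ℤ) + 2] γ) := by rw [hsl]; exact hf
  rw [period_apply, periodAt_const hf hfγ hP I τ, periodAt, hsl]


theorem period_add (N : ℕ) [NeZero N] (n : ℕ) (g : SL(2, ℤ)) (P Q : ℂ[X]) :
    period N n g (P + Q) = period N n g P + period N n g Q := by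
  ext f
  simp only [LinearMap.add_apply, period_apply, periodAt, polyAct_add, Psi_add_right,
    Pi.add_apply]
  ring

theorem period_smul (N : ℕ) [NeZero N] (n : ℕ) (g : SL(2, ℤ)) (c : ℂ) (P : ℂ[X]) :
    period N n g (c • P) = c • period N n g P := by
  ext f
  simp only [LinearMap.smul_apply, period_apply, periodAt, polyAct_smul, Psi_smul_right,
    Pi.smul_apply, smul_eq_mul]
  ring

theorem per_det_pos_int (γ : SL(2, ℤ)) : 0 < (γ : Matrix (Fin 2) (Fin 2) ℤ).det := by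
  rw [γ.det_coe]; exact one_pos

theorem period_mul (N : ℕ) [NeZero N] (n : ℕ) {γ δ : SL(2, ℤ)} (hγ : γ ∈ Gamma0 N)
    (hδ : δ ∈ Gamma0 N) {P : ℂ[X]} (hP : P.natDegree ≤ n) :
    period N n (γ * δ) P =
      period N n γ P + period N n δ (polyAct n (γ : Matrix (Fin 2) (Fin 2) ℤ) P) := by
  ext f
  have hγδ : γ * δ ∈ Gamma0 N := mul_mem hγ hδ
  rw [LinearMap.add_apply, period_eq N n hγδ hP f I, period_eq N n hγ hP f (δ • I),
    period_eq N n hδ (natDegree_polyAct_le n _ P) f I]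
  have h1 : polyAct n ((γ * δ : SL(2, ℤ)) : Matrix (Fin 2) (Fin 2) ℤ) P =
      polyAct n (δ : Matrix (Fin 2) (Fin 2) ℤ) (polyAct n (γ : Matrix (Fin 2) (Fin 2) ℤ) P) := by
    rw [Matrix.SpecialLinearGroup.coe_mul]
    exact polyAct_mul _ _ (per_det_pos_int γ) (per_det_pos_int δ) hP
  rw [h1, mul_smul]
  ring


/-- the period lattice -/
def lattice (N : ℕ) [NeZero N] (n : ℕ) :
    Submodule ℤ (Module.Dual ℂ (CuspForm (Gamma0 N) ((n : ℤ) + 2))) :=
  Submodule.span ℤ {ξ | ∃ γ ∈ Gamma0 N, ∃ P ∈ intPoly n, ξ = period N n γ P}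

theorem period_mem_lattice (N : ℕ) [NeZero N] (n : ℕ) {γ : SL(2, ℤ)} (hγ : γ ∈ Gamma0 N)
    {P : ℂ[X]} (hP : P ∈ intPoly n) : period N n γ P ∈ lattice N n :=
  Submodule.subset_span ⟨γ, hγ, P, hP, rfl⟩

theorem per_fg_SL2Z : Group.FG SL(2, ℤ) := by
  rw [Group.fg_iff]
  exact ⟨{ModularGroup.S, ModularGroup.T}, SpecialLinearGroup.SL2Z_generators,
    Set.toFinite _⟩

theorem per_fg_Gamma0 (N : ℕ) [NeZero N] :
    ∃ S : Set SL(2, ℤ), Subgroup.closure S = Gamma0 N ∧ S.Finite := by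
  haveI := per_fg_SL2Z
  have h : Group.FG (Gamma0 N) := inferInstance
  exact (Subgroup.fg_iff _).mp ((Group.fg_iff_subgroup_fg _).mp h)

theorem per_period_zero (N : ℕ) [NeZero N] (n : ℕ) (g : SL(2, ℤ)) : period N n g 0 = 0 := by
  have := period_smul N n g 0 0
  simpa using this

/-- `P ↦ period γ P` as an additive map -/
def perHom (N : ℕ) [NeZero N] (n : ℕ) (g : SL(2, ℤ)) :
    ℂ[X] →+ Module.Dual ℂ (CuspForm (Gamma0 N) ((n : ℤ) + 2)) where
  toFun P := period N n g P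
  map_zero' := per_period_zero N n g
  map_add' := period_add N n g

theorem per_intPoly_fg (n : ℕ) : (intPoly n).FG := by
  have h : intPoly n = Submodule.span ℤ
      ((fun j : ℕ => (X : ℂ[X]) ^ j) '' (Finset.range (n + 1) : Set ℕ)) := by
    apply le_antisymm
    · rintro P ⟨hP, hP'⟩
      rw [P.as_sum_range' (n + 1) (Nat.lt_succ_of_le hP)]
      refine Submodule.sum_mem _ fun j hj => ?_
      obtain ⟨a, ha⟩ := hP' j
      have : (monomial j) (P.coeff j) = a • (X : ℂ[X]) ^ j := by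
        rw [ha, ← C_mul_X_pow_eq_monomial, zsmul_eq_mul]
        simp
      rw [this]
      exact Submodule.smul_mem _ _ (Submodule.subset_span ⟨j, hj, rfl⟩)
    · rw [Submodule.span_le]
      rintro _ ⟨j, hj, rfl⟩
      have hj' : j ≤ n := Nat.lt_succ_iff.mp (Finset.mem_range.mp hj)
      refine ⟨(natDegree_X_pow_le j).trans hj', fun m => ?_⟩
      rw [coeff_X_pow]
      split_ifs
      · exact ⟨1, by simp⟩
      · exact ⟨0, by simp⟩
  rw [h]
  exact Submodule.fg_span (Set.Finite.image _ (Finset.finite_toSet _))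

theorem per_period_one (N : ℕ) [NeZero N] (n : ℕ) {P : ℂ[X]} (hP : P.natDegree ≤ n) :
    period N n 1 P = 0 := by
  have h := period_mul N n (one_mem (Gamma0 N)) (one_mem (Gamma0 N)) hP
  rw [mul_one, Matrix.SpecialLinearGroup.coe_one, polyAct_one hP] at h
  have h2 : period N n 1 P + period N n 1 P = period N n 1 P + 0 := by
    rw [add_zero]; exact h.symm
  exact add_left_cancel h2

theorem per_period_inv (N : ℕ) [NeZero N] (n : ℕ) {γ : SL(2, ℤ)} (hγ : γ ∈ Gamma0 N)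
    {P : ℂ[X]} (hP : P.natDegree ≤ n) :
    period N n γ⁻¹ P =
      - period N n γ (polyAct n ((γ⁻¹ : SL(2, ℤ)) : Matrix (Fin 2) (Fin 2) ℤ) P) := by
  have hγ' : γ⁻¹ ∈ Gamma0 N := inv_mem hγ
  have hQ := natDegree_polyAct_le n ((γ⁻¹ : SL(2, ℤ)) : Matrix (Fin 2) (Fin 2) ℤ) P
  have h := period_mul N n hγ hγ' hQ
  have h1 : polyAct n (γ : Matrix (Fin 2) (Fin 2) ℤ)
      (polyAct n ((γ⁻¹ : SL(2, ℤ)) : Matrix (Fin 2) (Fin 2) ℤ) P) = P := by
    rw [← polyAct_mul _ _ (per_det_pos_int γ⁻¹) (per_det_pos_int γ) hP,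
      ← Matrix.SpecialLinearGroup.coe_mul, inv_mul_cancel, Matrix.SpecialLinearGroup.coe_one,
      polyAct_one hP]
  rw [mul_inv_cancel, per_period_one N n hQ, h1] at h
  exact eq_neg_of_add_eq_zero_right h.symm

theorem lattice_fg (N : ℕ) [NeZero N] (n : ℕ) : (lattice N n).FG := by
  obtain ⟨S, hS, hSfin⟩ := per_fg_Gamma0 N
  set L' : Submodule ℤ (Module.Dual ℂ (CuspForm (Gamma0 N) ((n : ℤ) + 2))) :=
    ⨆ γ ∈ hSfin.toFinset, Submodule.map (perHom N n γ).toIntLinearMap (intPoly n) with hL'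
  have hL'fg : L'.FG :=
    Submodule.fg_biSup _ _ fun γ _ => (per_intPoly_fg n).map _
  have hgen : ∀ γ ∈ S, ∀ P ∈ intPoly n, period N n γ P ∈ L' := by
    intro γ hγ P hP
    have h1 : Submodule.map (perHom N n γ).toIntLinearMap (intPoly n) ≤ L' :=
      le_biSup (fun γ => Submodule.map (perHom N n γ).toIntLinearMap (intPoly n))
        (hSfin.mem_toFinset.mpr hγ)
    exact h1 ⟨P, hP, rfl⟩
  have hall : ∀ γ (hγ : γ ∈ Subgroup.closure S), ∀ P ∈ intPoly n, period N n γ P ∈ L' := by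
    intro γ hγ
    induction hγ using Subgroup.closure_induction with
    | mem x hx => exact hgen x hx
    | one =>
      intro P hP
      rw [per_period_one N n hP.1]
      exact zero_mem _
    | mul x y hx hy ihx ihy =>
      intro P hP
      rw [hS] at hx hy
      rw [period_mul N n hx hy hP.1]
      exact add_mem (ihx P hP) (ihy _ (polyAct_mem_intPoly _ hP))
    | inv x hx ih =>
      intro P hP
      rw [hS] at hx
      rw [per_period_inv N n hx hP.1]
      exact neg_mem (ih _ (polyAct_mem_intPoly _ hP))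
  have hle : lattice N n ≤ L' := by
    rw [lattice, Submodule.span_le]
    rintro _ ⟨γ, hγ, P, hP, rfl⟩
    exact hall γ (by rw [hS]; exact hγ) P hP
  have hge : L' ≤ lattice N n := by
    rw [hL']
    refine iSup₂_le fun γ hγ => ?_
    rintro _ ⟨P, hP, rfl⟩
    have hγ' : γ ∈ Gamma0 N := by
      rw [← hS]
      exact Subgroup.subset_closure (hSfin.mem_toFinset.mp hγ)
    exact period_mem_lattice N n hγ' hP
  rw [le_antisymm hle hge]
  exact hL'fg

end Fermat.Agent.S22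

end
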