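import Fermat.Agent.S22.Defs

/-!
# S22 package PRIM: cuspidal primitives

Existence (via the cusp function on the unit disc and Morera on a disc), uniqueness and
linearity of the primitive vanishing at `i∞`.
-/

set_option autoImplicit false

noncomputable section

namespace Fermat.Agent.S22

open UpperHalfPlane Filter Topology Polynomial CongruenceSubgroup Real
open scoped MatrixGroups ModularForm Manifold

local notation "𝕢" => Function.Periodic.qParam

theorem IsPrim.mdiff {G F : ℍ → ℂ} (h : IsPrim G F) : MDiff G :=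
  fun τ => mdifferentiableAt_iff.mpr (h τ).differentiableAt

theorem IsPrim.eq_add_const {G₁ G₂ F : ℍ → ℂ} (h₁ : IsPrim G₁ F) (h₂ : IsPrim G₂ F) :
    ∃ c : ℂ, ∀ τ, G₁ τ = G₂ τ + c := by
  let D : ℂ → ℂ := fun z => (G₁ ∘ ofComplex) z - (G₂ ∘ ofComplex) z
  have hD : ∀ z : ℂ, z ∈ {z : ℂ | 0 < z.im} → HasDerivAt D 0 z := fun z hz => by
    have := (h₁ ⟨z, hz⟩).sub (h₂ ⟨z, hz⟩)
    rw [sub_self] at this
    exact this
  have hpre : IsPreconnected {z : ℂ | 0 < z.im} :=
    (Complex.isConnected_of_upperHalfPlane subset_rfl (by grind)).isPreconnected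
  have hconst : ∀ z w : ℂ, 0 < z.im → 0 < w.im → D z = D w := by
    intro z w hz hw
    exact isOpen_upperHalfPlaneSet.is_const_of_deriv_eq_zero hpre
      (fun x hx => (hD x hx).differentiableAt.differentiableWithinAt)
      (fun x hx => (hD x hx).deriv) hz hw
  refine ⟨D I, fun τ => ?_⟩
  have := hconst τ I τ.im_pos (by simp)
  simp only [D, Function.comp_apply, ofComplex_apply] at this ⊢
  linear_combination this

theorem tendsto_vpt_atImInfty (x : ℝ) : Tendsto (fun y : ℝ => vpt x y) atTop atImInfty := by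
  rw [atImInfty, tendsto_comap_iff]
  refine tendsto_id.congr' ?_
  filter_upwards [eventually_gt_atTop 0] with y hy
  have : 0 < ((x : ℂ) + (y : ℂ) * Complex.I).im := by simpa using hy
  simp [vpt, ofComplex_apply_of_im_pos this]

theorem coe_vpt {x y : ℝ} (hy : 0 < y) : ((vpt x y : ℍ) : ℂ) = (x : ℂ) + (y : ℂ) * Complex.I := by
  have : 0 < ((x : ℂ) + (y : ℂ) * Complex.I).im := by simpa using hy
  simp [vpt, ofComplex_apply_of_im_pos this]

theorem IsZeroAtImInfty.decaysOnLines {G : ℍ → ℂ} (h : IsZeroAtImInfty G) : DecaysOnLines G :=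
  fun x => h.comp (tendsto_vpt_atImInfty x)

theorem hasDerivAt_qParam (h : ℝ) (z : ℂ) :
    HasDerivAt (𝕢 h) (2 * π * Complex.I / h * 𝕢 h z) z := by
  have h1 : HasDerivAt (fun z : ℂ => 2 * π * Complex.I * z / h) (2 * π * Complex.I / h) z := by
    have := ((hasDerivAt_id z).const_mul (2 * π * Complex.I)).div_const (h : ℂ)
    simpa using this
  have h2 := h1.cexp
  refine h2.congr_deriv ?_
  simp only [Function.Periodic.qParam]
  ring

theorem qParam_add_period {h : ℝ} (hh : h ≠ 0) (w : ℂ) : 𝕢 h (w + h) = 𝕢 h w := by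
  have hhC : (h : ℂ) ≠ 0 := by exact_mod_cast hh
  simp only [Function.Periodic.qParam]
  rw [show 2 * (π : ℂ) * Complex.I * (w + h) / h = 2 * π * Complex.I * w / h + 2 * π * Complex.I by
    field_simp]
  rw [Complex.exp_add, Complex.exp_two_pi_mul_I, mul_one]

theorem exists_isPrim_isCuspidal {h : ℝ} {F : ℍ → ℂ} (hF : IsCuspidal h F) :
    ∃ G, IsPrim G F ∧ IsCuspidal h G := by
  have hh := hF.pos
  have hhC : (h : ℂ) ≠ 0 := by exact_mod_cast hh.ne'
  set φ := cuspFunction h F with hφ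
  have hbdd : IsBoundedAtImInfty F := hF.zero.isBoundedAtImInfty
  have hφd : DifferentiableOn ℂ φ (Metric.ball 0 1) :=
    differentiableOn_cuspFunction_ball hh hF.periodic hF.mdiff hbdd
  have hφ0 : φ 0 = 0 := hF.zero.cuspFunction_apply_zero hh
  have hψd : DifferentiableOn ℂ (dslope φ 0) (Metric.ball 0 1) :=
    (Complex.differentiableOn_dslope (Metric.ball_mem_nhds 0 one_pos)).mpr hφd
  obtain ⟨G₁, hG₁0, hG₁⟩ := hψd.isExactOn_ball.with_val_at 0 0
  have hq : ∀ τ : ℍ, 𝕢 h τ ∈ Metric.ball (0 : ℂ) 1 := fun τ => by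
    simpa using Function.Periodic.norm_qParam_lt_one hh τ.im_pos
  let c : ℂ := h / (2 * π * Complex.I)
  let G : ℍ → ℂ := fun τ => c * G₁ (𝕢 h τ)
  have hprim : IsPrim G F := by
    intro τ
    have h1 : HasDerivAt (fun z : ℂ => c * G₁ (𝕢 h z)) (F τ) τ := by
      have h2 := ((hG₁ _ (hq τ)).comp (τ : ℂ) (hasDerivAt_qParam h τ)).const_mul c
      refine h2.congr_deriv ?_
      have h3 : F τ = φ (𝕢 h τ) := (eq_cuspFunction τ hh.ne' hF.periodic).symm
      have h4 : dslope φ 0 (𝕢 h τ) * 𝕢 h τ = φ (𝕢 h τ) := by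
        have := sub_smul_dslope φ 0 (𝕢 h τ)
        simp only [sub_zero, smul_eq_mul, hφ0] at this
        rw [mul_comm]; exact this
      rw [h3, ← h4]
      simp only [c]
      have hpi : (2 * π * Complex.I : ℂ) ≠ 0 := Complex.two_pi_I_ne_zero
      field_simp
    refine h1.congr_of_eventuallyEq ?_
    filter_upwards [isOpen_upperHalfPlaneSet.mem_nhds τ.im_pos] with z hz
    simp only [Function.comp_apply, G]
    rw [ofComplex_apply_of_im_pos hz]
  refine ⟨G, hprim, hh, hprim.mdiff, ?_, ?_⟩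
  · intro w
    by_cases hw : 0 < w.im
    · have hw' : 0 < (w + h).im := by simpa using hw
      simp only [Function.comp_apply, G, ofComplex_apply_of_im_pos hw,
        ofComplex_apply_of_im_pos hw']
      congr 2
      exact qParam_add_period hh.ne' w
    · have hw0 : w.im ≤ 0 := not_lt.mp hw
      have hw' : (w + h).im ≤ 0 := by simpa using hw0
      simp [Function.comp_apply, ofComplex_apply_of_im_nonpos hw0,
        ofComplex_apply_of_im_nonpos hw']
  · -- zero at infinity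
    have hcont : ContinuousAt G₁ 0 := (hG₁ 0 (by simp)).continuousAt
    have h1 : Tendsto (fun τ : ℍ => G₁ (𝕢 h τ)) atImInfty (𝓝 0) := by
      have := hcont.tendsto.comp (qParam_tendsto_atImInfty hh)
      rwa [hG₁0] at this
    have h2 := h1.const_mul c
    rw [mul_zero] at h2
    exact h2

theorem IsPrim.add {G₁ G₂ F₁ F₂ : ℍ → ℂ} (h₁ : IsPrim G₁ F₁) (h₂ : IsPrim G₂ F₂) :
    IsPrim (G₁ + G₂) (F₁ + F₂) := fun τ => (h₁ τ).add (h₂ τ)

theorem IsPrim.const_smul {G F : ℍ → ℂ} (h : IsPrim G F) (c : ℂ) :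
    IsPrim (c • G) (c • F) := fun τ => (h τ).const_smul c

theorem IsPrim.congr_right {G F F' : ℍ → ℂ} (h : IsPrim G F) (hF : F = F') : IsPrim G F' :=
  hF ▸ h

theorem cuspPrim_eq {F G : ℍ → ℂ} (hG : IsPrim G F) (hz : IsZeroAtImInfty G) :
    cuspPrim F = G := by
  have hex : ∃ G : ℍ → ℂ, IsPrim G F ∧ IsZeroAtImInfty G := ⟨G, hG, hz⟩
  have hspec := hex.choose_spec
  have hdef : cuspPrim F = hex.choose := by
    unfold cuspPrim
    rw [dif_pos hex]
  rw [hdef]
  obtain ⟨c, hc⟩ := hspec.1.eq_add_const hG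
  have h1 : Tendsto (fun τ => hex.choose τ - G τ) atImInfty (𝓝 0) := by
    have := hspec.2.sub hz
    simpa using this
  have h2 : Tendsto (fun τ => hex.choose τ - G τ) atImInfty (𝓝 c) :=
    tendsto_const_nhds.congr (fun τ => by rw [hc]; ring)
  have hc0 : c = 0 := tendsto_nhds_unique h2 h1
  funext τ
  rw [hc, hc0, add_zero]

theorem isPrim_cuspPrim {h : ℝ} {F : ℍ → ℂ} (hF : IsCuspidal h F) : IsPrim (cuspPrim F) F := by
  obtain ⟨G, hG, hGc⟩ := exists_isPrim_isCuspidal hF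
  rw [cuspPrim_eq hG hGc.zero]
  exact hG

theorem isCuspidal_cuspPrim {h : ℝ} {F : ℍ → ℂ} (hF : IsCuspidal h F) :
    IsCuspidal h (cuspPrim F) := by
  obtain ⟨G, hG, hGc⟩ := exists_isPrim_isCuspidal hF
  rw [cuspPrim_eq hG hGc.zero]
  exact hGc

theorem isCuspidal_iterate_cuspPrim {h : ℝ} {F : ℍ → ℂ} (hF : IsCuspidal h F) (j : ℕ) :
    IsCuspidal h (cuspPrim^[j] F) := by
  induction j with
  | zero => simpa using hF
  | succ j ih =>
    rw [Function.iterate_succ_apply']
    exact isCuspidal_cuspPrim ih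

theorem isPrim_iterate_cuspPrim {h : ℝ} {F : ℍ → ℂ} (hF : IsCuspidal h F) (j : ℕ) :
    IsPrim (cuspPrim^[j + 1] F) (cuspPrim^[j] F) := by
  rw [Function.iterate_succ_apply']
  exact isPrim_cuspPrim (isCuspidal_iterate_cuspPrim hF j)

theorem cuspPrim_add {h₁ h₂ : ℝ} {F₁ F₂ : ℍ → ℂ} (hF₁ : IsCuspidal h₁ F₁)
    (hF₂ : IsCuspidal h₂ F₂) : cuspPrim (F₁ + F₂) = cuspPrim F₁ + cuspPrim F₂ :=
  cuspPrim_eq ((isPrim_cuspPrim hF₁).add (isPrim_cuspPrim hF₂))
    ((isCuspidal_cuspPrim hF₁).zero.add (isCuspidal_cuspPrim hF₂).zero)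

theorem cuspPrim_smul {h : ℝ} {F : ℍ → ℂ} (hF : IsCuspidal h F) (c : ℂ) :
    cuspPrim (c • F) = c • cuspPrim F :=
  cuspPrim_eq ((isPrim_cuspPrim hF).const_smul c) ((isCuspidal_cuspPrim hF).zero.smul c)

theorem iterate_cuspPrim_add {h₁ h₂ : ℝ} {F₁ F₂ : ℍ → ℂ} (hF₁ : IsCuspidal h₁ F₁)
    (hF₂ : IsCuspidal h₂ F₂) (j : ℕ) :
    cuspPrim^[j] (F₁ + F₂) = cuspPrim^[j] F₁ + cuspPrim^[j] F₂ := by
  induction j with
  | zero => rfl
  | succ j ih =>
    rw [Function.iterate_succ_apply', Function.iterate_succ_apply', Function.iterate_succ_apply',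
      ih]
    exact cuspPrim_add (isCuspidal_iterate_cuspPrim hF₁ j) (isCuspidal_iterate_cuspPrim hF₂ j)

theorem iterate_cuspPrim_smul {h : ℝ} {F : ℍ → ℂ} (hF : IsCuspidal h F) (c : ℂ) (j : ℕ) :
    cuspPrim^[j] (c • F) = c • cuspPrim^[j] F := by
  induction j with
  | zero => rfl
  | succ j ih =>
    rw [Function.iterate_succ_apply', Function.iterate_succ_apply', ih]
    exact cuspPrim_smul (isCuspidal_iterate_cuspPrim hF j) c

/-- if all iterated primitives vanish then so does the function -/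
theorem eq_zero_of_iterate_cuspPrim_eq_zero {h : ℝ} {F : ℍ → ℂ} (hF : IsCuspidal h F) (j : ℕ)
    (h0 : cuspPrim^[j] F = 0) : F = 0 := by
  induction j with
  | zero => simpa using h0
  | succ j ih =>
    apply ih
    have hp := isPrim_iterate_cuspPrim hF j
    rw [h0] at hp
    funext τ
    have h1 : HasDerivAt ((0 : ℍ → ℂ) ∘ ofComplex) 0 (τ : ℂ) := by
      have : ((0 : ℍ → ℂ) ∘ ofComplex) = fun _ => (0 : ℂ) := by
        funext z; simp
      rw [this]
      exact hasDerivAt_const _ _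
    exact (hp τ).unique h1

end Fermat.Agent.S22

end
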