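import Fermat.Agent.S22.Primitive

/-!
# S22 package PSI: the primitive `Psi n F P` of `F · P` vanishing at `i∞`
-/

set_option autoImplicit false

noncomputable section

namespace Fermat.Agent.S22

open UpperHalfPlane Filter Topology Polynomial CongruenceSubgroup Real Asymptotics
open scoped MatrixGroups ModularForm Manifold

theorem iterDeriv_add (j : ℕ) (P Q : ℂ[X]) :
    derivative^[j] (P + Q) = derivative^[j] P + derivative^[j] Q := by
  induction j generalizing P Q with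
  | zero => rfl
  | succ j ih => simp only [Function.iterate_succ_apply, derivative_add, ih]

theorem Psi_add_right (n : ℕ) (F : ℍ → ℂ) (P Q : ℂ[X]) :
    Psi n F (P + Q) = Psi n F P + Psi n F Q := by
  funext τ
  simp only [Psi, Pi.add_apply, iterDeriv_add, eval_add, mul_add, Finset.sum_add_distrib]

theorem Psi_smul_right (n : ℕ) (F : ℍ → ℂ) (c : ℂ) (P : ℂ[X]) :
    Psi n F (c • P) = c • Psi n F P := by
  funext τ
  simp only [Psi, Pi.smul_apply, iterate_derivative_smul, eval_smul, smul_eq_mul, Finset.mul_sum]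
  refine Finset.sum_congr rfl fun j _ => ?_
  ring

theorem Psi_add_left {h₁ h₂ : ℝ} {F₁ F₂ : ℍ → ℂ} (hF₁ : IsCuspidal h₁ F₁)
    (hF₂ : IsCuspidal h₂ F₂) (n : ℕ) (P : ℂ[X]) :
    Psi n (F₁ + F₂) P = Psi n F₁ P + Psi n F₂ P := by
  funext τ
  simp only [Psi, Pi.add_apply, iterate_cuspPrim_add hF₁ hF₂, ← Finset.sum_add_distrib]
  refine Finset.sum_congr rfl fun j _ => ?_
  ring

theorem Psi_smul_left {h : ℝ} {F : ℍ → ℂ} (hF : IsCuspidal h F) (c : ℂ) (n : ℕ) (P : ℂ[X]) :
    Psi n (c • F) P = c • Psi n F P := by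
  funext τ
  simp only [Psi, Pi.smul_apply, iterate_cuspPrim_smul hF, smul_eq_mul, Finset.mul_sum]
  refine Finset.sum_congr rfl fun j _ => ?_
  ring

theorem Psi_X_sub_C_pow (n : ℕ) (F : ℍ → ℂ) (τ : ℍ) :
    Psi n F ((X - C (τ : ℂ)) ^ n) τ = (-1) ^ n * (n.factorial : ℂ) * (cuspPrim^[n + 1] F) τ := by
  simp only [Psi]
  rw [Finset.sum_eq_single n]
  · rw [iterate_derivative_X_sub_pow_self]
    simp only [eval_natCast]
    ring
  · intro j hj hjn
    have hj' : j < n := lt_of_le_of_ne (Nat.lt_succ_iff.mp (Finset.mem_range.mp hj)) hjn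
    rw [iterate_derivative_X_sub_pow]
    simp only [eval_smul, eval_pow, eval_sub, eval_X, eval_C, sub_self]
    rw [zero_pow (by omega)]
    simp
  · intro hn
    exact absurd (Finset.mem_range.mpr (Nat.lt_succ_self n)) hn

theorem isPrim_Psi {h : ℝ} {F : ℍ → ℂ} (hF : IsCuspidal h F) {n : ℕ} {P : ℂ[X]}
    (hP : P.natDegree ≤ n) : IsPrim (Psi n F P) (F * polyFun P) := by
  intro τ
  -- the derivative of each term
  have hterm : ∀ j : ℕ, HasDerivAt
      (fun z : ℂ => (-1 : ℂ) ^ j * (cuspPrim^[j + 1] F ∘ ofComplex) z * (derivative^[j] P).eval z)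
      ((-1 : ℂ) ^ j * (cuspPrim^[j] F) τ * (derivative^[j] P).eval (τ : ℂ)
        - (-1 : ℂ) ^ (j + 1) * (cuspPrim^[j + 1] F) τ * (derivative^[j + 1] P).eval (τ : ℂ)) τ := by
    intro j
    have h1 := isPrim_iterate_cuspPrim hF j τ
    have h2 := (derivative^[j] P).hasDerivAt (τ : ℂ)
    have h3 := (h1.const_mul ((-1 : ℂ) ^ j)).mul h2
    refine h3.congr_deriv ?_
    simp only [Function.comp_apply, ofComplex_apply, Function.iterate_succ_apply' (f := ⇑derivative)]
    ring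
  have hsum := HasDerivAt.fun_sum (u := Finset.range (n + 1)) fun j _ => hterm j
  rw [Finset.sum_range_sub' (fun j => (-1 : ℂ) ^ j * (cuspPrim^[j] F) τ *
    (derivative^[j] P).eval (τ : ℂ))] at hsum
  have hz : derivative^[n + 1] P = 0 := iterate_derivative_eq_zero (Nat.lt_succ_of_le hP)
  rw [hz] at hsum
  simp only [pow_zero, one_mul, Function.iterate_zero, id_eq, eval_zero, mul_zero, sub_zero]
    at hsum
  refine hsum.congr_of_eventuallyEq ?_
  filter_upwards [isOpen_upperHalfPlaneSet.mem_nhds τ.im_pos] with z hz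
  simp only [Function.comp_apply, Psi, ofComplex_apply_of_im_pos hz, coe_mk]

theorem im_vpt {x y : ℝ} (hy : 0 < y) : (vpt x y).im = y := by
  have := congrArg Complex.im (coe_vpt (x := x) hy)
  simpa using this

theorem isBigO_cuspidal_vpt {h : ℝ} {G : ℍ → ℂ} (hG : IsCuspidal h G) (x : ℝ) :
    (fun y : ℝ => G (vpt x y)) =O[atTop] fun y : ℝ => Real.exp (-(2 * π / h) * y) := by
  have hO := IsZeroAtImInfty.exp_decay_atImInfty hG.zero hG.pos hG.periodic hG.mdiff
    hG.zero.isBoundedAtImInfty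
  have h1 := hO.comp_tendsto (tendsto_vpt_atImInfty x)
  refine h1.congr' (Eventually.of_forall fun y => rfl) ?_
  filter_upwards [eventually_gt_atTop 0] with y hy
  simp only [Function.comp_apply, im_vpt hy]
  congr 1
  ring

theorem isBigO_pow_vpt (x : ℝ) (m : ℕ) :
    (fun y : ℝ => ((vpt x y : ℍ) : ℂ) ^ m) =O[atTop] fun y : ℝ => y ^ m := by
  refine IsBigO.of_bound (2 ^ m) ?_
  filter_upwards [eventually_gt_atTop 0, eventually_ge_atTop |x|] with y hy hxy
  rw [coe_vpt hy, norm_pow, norm_pow, ← mul_pow]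
  refine pow_le_pow_left₀ (norm_nonneg _) ?_ m
  calc ‖(x : ℂ) + (y : ℂ) * Complex.I‖ ≤ ‖(x : ℂ)‖ + ‖(y : ℂ) * Complex.I‖ := norm_add_le _ _
    _ = |x| + |y| := by simp
    _ ≤ 2 * ‖y‖ := by rw [Real.norm_eq_abs, abs_of_pos hy]; linarith

theorem tendsto_exp_neg_mul_pow {c : ℝ} (hc : 0 < c) (m : ℕ) :
    Tendsto (fun y : ℝ => Real.exp (-c * y) * y ^ m) atTop (𝓝 0) := by
  have := (isLittleO_pow_exp_pos_mul_atTop m hc).tendsto_div_nhds_zero
  refine this.congr fun y => ?_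
  rw [neg_mul, Real.exp_neg]
  field_simp

theorem tendsto_cuspidal_mul_eval_vpt {h : ℝ} {G : ℍ → ℂ} (hG : IsCuspidal h G) (Q : ℂ[X])
    (x : ℝ) : Tendsto (fun y : ℝ => G (vpt x y) * Q.eval ((vpt x y : ℍ) : ℂ)) atTop (𝓝 0) := by
  induction Q using Polynomial.induction_on' with
  | add P Q hP hQ =>
    have := hP.add hQ
    simp only [add_zero] at this
    refine this.congr fun y => ?_
    simp only [eval_add]; ring
  | monomial m a =>
    have hc : 0 < 2 * π / h := div_pos (by positivity) hG.pos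
    have h1 := (isBigO_cuspidal_vpt hG x).mul (isBigO_pow_vpt x m)
    have h2 := h1.trans_tendsto (tendsto_exp_neg_mul_pow hc m)
    have h3 := h2.const_mul a
    rw [mul_zero] at h3
    refine h3.congr fun y => ?_
    simp only [eval_monomial]; ring

theorem decaysOnLines_Psi {h : ℝ} {F : ℍ → ℂ} (hF : IsCuspidal h F) (n : ℕ) (P : ℂ[X]) :
    DecaysOnLines (Psi n F P) := by
  intro x
  simp only [Psi]
  have : Tendsto (fun y : ℝ => ∑ j ∈ Finset.range (n + 1),
      (-1 : ℂ) ^ j * ((cuspPrim^[j + 1] F) (vpt x y) *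
        (derivative^[j] P).eval ((vpt x y : ℍ) : ℂ))) atTop (𝓝 (∑ j ∈ Finset.range (n + 1), 0)) := by
    refine tendsto_finsetSum _ fun j _ => ?_
    have := (tendsto_cuspidal_mul_eval_vpt (isCuspidal_iterate_cuspPrim hF (j + 1))
      (derivative^[j] P) x).const_mul ((-1 : ℂ) ^ j)
    rwa [mul_zero] at this
  rw [Finset.sum_const_zero] at this
  refine this.congr fun y => Finset.sum_congr rfl fun j _ => ?_
  ring

theorem IsPrim.eq_of_decaysOnLines {G₁ G₂ F : ℍ → ℂ} (h₁ : IsPrim G₁ F) (h₂ : IsPrim G₂ F)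
    (d₁ : DecaysOnLines G₁) (d₂ : DecaysOnLines G₂) : G₁ = G₂ := by
  obtain ⟨c, hc⟩ := h₁.eq_add_const h₂
  have t1 : Tendsto (fun y : ℝ => G₁ (vpt 0 y) - G₂ (vpt 0 y)) atTop (𝓝 0) := by
    simpa using (d₁ 0).sub (d₂ 0)
  have t2 : Tendsto (fun y : ℝ => G₁ (vpt 0 y) - G₂ (vpt 0 y)) atTop (𝓝 c) :=
    tendsto_const_nhds.congr fun y => by rw [hc]; ring
  have hc0 : c = 0 := tendsto_nhds_unique t2 t1
  funext τ
  rw [hc, hc0, add_zero]

theorem Psi_unique {h : ℝ} {F : ℍ → ℂ} (hF : IsCuspidal h F) {n : ℕ} {P : ℂ[X]}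
    (hP : P.natDegree ≤ n) {G : ℍ → ℂ} (hG : IsPrim G (F * polyFun P)) (hd : DecaysOnLines G) :
    G = Psi n F P :=
  hG.eq_of_decaysOnLines (isPrim_Psi hF hP) hd (decaysOnLines_Psi hF n P)

end Fermat.Agent.S22

end
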